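import Fermat.Agent.Raising.SquareRemoval.Weil.Herm

/-!
# The Weil representation on functions of hermitian forms over `ℤ[ω] / D`, `D` squarefree

The representation is assembled from the primes dividing `D`; functions invariant under lower
triangular matrices of determinant one lie in the span of the translates of `Γ₀(D)`-fixed vectors.
-/

noncomputable section

namespace Fermat.Agent.Raising.SquareRemoval

open scoped MatrixGroups
open ModularGroup CongruenceSubgroup

/-- The primes dividing `D`. -/
abbrev PIdx (D : ℕ) : Type := {p // p ∈ D.primeFactors}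

instance pIdxFact {D : ℕ} (p : PIdx D) : Fact (Nat.Prime p.1) :=
  ⟨Nat.prime_of_mem_primeFactors p.2⟩

theorem pIdx_coprime (D : ℕ) : Pairwise (Function.onFun Nat.Coprime fun p : PIdx D => p.1) :=
  fun p r h => (Nat.coprime_primes (Fact.out (p := p.1.Prime))
    (Fact.out (p := r.1.Prime))).mpr fun e => h (Subtype.ext e)

theorem prod_pIdx {D : ℕ} (hsq : Squarefree D) : ∏ p : PIdx D, p.1 = D := by
  rw [Finset.univ_eq_attach, Finset.prod_attach D.primeFactors (fun p => p),
    Nat.prod_primeFactors_of_squarefree hsq]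

/-- Reduction at a prime of `D`. -/
def toP {D : ℕ} (p : PIdx D) : ZMod D →+* ZMod p.1 :=
  ZMod.castHom (Nat.dvd_of_mem_primeFactors p.2) (ZMod p.1)

/-- Reduction at all primes of `D`. -/
def redPi (D : ℕ) : ZMod D →+* ∀ p : PIdx D, ZMod p.1 := RingHom.pi toP

theorem redPi_bijective {D : ℕ} [NeZero D] (hsq : Squarefree D) : Function.Bijective (redPi D) := by
  refine (Fintype.bijective_iff_injective_and_card _).mpr ⟨?_, ?_⟩
  · refine (injective_iff_map_eq_zero _).mpr fun x hx => ?_
    rw [← ZMod.natCast_zmod_val x, ZMod.natCast_eq_zero_iff]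
    suffices hd : ∏ p ∈ D.primeFactors, p ∣ x.val by
      rwa [Nat.prod_primeFactors_of_squarefree hsq] at hd
    refine Finset.prod_primes_dvd _ (fun p hp => (Nat.prime_of_mem_primeFactors hp).prime)
      fun p hp => ?_
    have h := congrFun hx ⟨p, hp⟩
    rw [← ZMod.natCast_zmod_val x, map_natCast] at h
    exact (ZMod.natCast_eq_zero_iff _ _).mp h
  · simp only [Fintype.card_pi, ZMod.card]
    exact (prod_pIdx hsq).symm

/-- The data of the representation: a squarefree level `D` prime to `3`, invertible in `R`, and a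
primitive additive character of `ZMod D`. -/
structure VdChar (D : ℕ) (R : Type) [CommRing R] where
  /-- The level is squarefree. -/
  sq : Squarefree D
  /-- The level is prime to three. -/
  cop : Nat.Coprime 3 D
  /-- The level is invertible in the coefficient ring. -/
  unit : IsUnit (D : R)
  /-- The additive character. -/
  ψ : AddChar (ZMod D) R
  prim : ψ.IsPrimitive

namespace VdChar

variable {D : ℕ} [NeZero D] {R : Type} [CommRing R] (c : VdChar D R)
include c

/-- The Chinese remainder isomorphism. -/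
def crt : ZMod D ≃+* ∀ p : PIdx D, ZMod p.1 := RingEquiv.ofBijective _ (redPi_bijective c.sq)

theorem crt_apply (x : ZMod D) (p : PIdx D) : c.crt x p = toP p x := rfl

theorem toP_crt_symm (f : ∀ p : PIdx D, ZMod p.1) (p : PIdx D) : toP p (c.crt.symm f) = f p := by
  rw [← c.crt_apply, RingEquiv.apply_symm_apply]

theorem ext_toP {x y : ZMod D} (h : ∀ p : PIdx D, toP p x = toP p y) : x = y :=
  c.crt.injective (funext h)

/-- Points of `Vd (ZMod D)` as families of points modulo the primes of `D`. -/
def vdEquiv : Vd (ZMod D) ≃ ∀ p : PIdx D, Vd (ZMod p.1) where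
  toFun v p := mapVd (toP p) v
  invFun w := (c.crt.symm fun p => (w p).1,
    (c.crt.symm fun p => (w p).2.1.1, c.crt.symm fun p => (w p).2.1.2),
    c.crt.symm fun p => (w p).2.2)
  left_inv v := by
    refine Prod.ext ?_ (Prod.ext (Prod.ext ?_ ?_) ?_) <;>
      exact c.ext_toP fun p => by simp [toP_crt_symm, mapVd]
  right_inv w := funext fun p => by simp [mapVd, toP_crt_symm]

theorem vdEquiv_apply (v : Vd (ZMod D)) (p : PIdx D) : c.vdEquiv v p = mapVd (toP p) v := rfl

/-- The component of the character at `p`. -/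
def locψ (p : PIdx D) : AddChar (ZMod p.1) R where
  toFun x := c.ψ (c.crt.symm (Pi.single p x))
  map_zero_eq_one' := by rw [Pi.single_zero, map_zero, AddChar.map_zero_eq_one]
  map_add_eq_mul' x y := by rw [Pi.single_add, map_add, AddChar.map_add_eq_mul]

theorem locψ_apply (p : PIdx D) (x : ZMod p.1) :
    c.locψ p x = c.ψ (c.crt.symm (Pi.single p x)) := rfl

omit c in
theorem addChar_sum {G : Type} [AddCommMonoid G] (ψ : AddChar G R) {ι : Type} (s : Finset ι)
    (f : ι → G) : ψ (∑ i ∈ s, f i) = ∏ i ∈ s, ψ (f i) :=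
  map_prod ψ.toMonoidHom (fun i => Multiplicative.ofAdd (f i)) s

theorem prod_locψ (f : ∀ p : PIdx D, ZMod p.1) :
    ∏ p, c.locψ p (f p) = c.ψ (c.crt.symm f) := by
  simp only [locψ_apply]
  rw [← addChar_sum, ← map_sum, Finset.univ_sum_single]

theorem prod_locψ_toP (x : ZMod D) : ∏ p, c.locψ p (toP p x) = c.ψ x := by
  rw [c.prod_locψ, show (fun p => toP p x) = c.crt x from rfl, RingEquiv.symm_apply_apply]

variable [IsDomain R]

theorem locψ_sum (p : PIdx D) {x : ZMod p.1} (hx : x ≠ 0) :
    ∑ t : ZMod p.1, c.locψ p (t * x) = 0 := by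
  have hne : (c.locψ p).mulShift x ≠ 1 := fun h => by
    refine c.prim (a := c.crt.symm (Pi.single p x)) (fun h0 => hx ?_) (DFunLike.ext _ _ fun y => ?_)
    · simpa [toP_crt_symm] using congrArg (toP p) h0
    · have h' := DFunLike.congr_fun h (toP p y)
      rw [AddChar.mulShift_apply, AddChar.one_apply, locψ_apply] at h'
      rw [AddChar.mulShift_apply, AddChar.one_apply, ← h']
      refine congrArg c.ψ (c.ext_toP fun r => ?_)
      rw [map_mul, toP_crt_symm, toP_crt_symm]
      by_cases hr : r = p
      · subst hr; rw [Pi.single_eq_same, Pi.single_eq_same]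
      · rw [Pi.single_eq_of_ne hr, Pi.single_eq_of_ne hr, zero_mul]
  refine Eq.trans (Finset.sum_congr rfl fun t _ => ?_) (AddChar.sum_eq_zero_of_ne_one hne)
  rw [AddChar.mulShift_apply, mul_comm]

omit [NeZero D] [IsDomain R] in
theorem isUnit_pIdx (p : PIdx D) : IsUnit (p.1 : R) :=
  isUnit_of_dvd_unit (Nat.cast_dvd_cast (Nat.dvd_of_mem_primeFactors p.2)) c.unit

omit [NeZero D] [IsDomain R] in
theorem three_ne_zero_pIdx (p : PIdx D) : (3 : ZMod p.1) ≠ 0 := fun h => by
  have h1 : p.1 ∣ 3 := (CharP.cast_eq_zero_iff (ZMod p.1) p.1 3).mp (by exact_mod_cast h)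
  exact (Fact.out : p.1.Prime).not_dvd_one (c.cop ▸ Nat.dvd_gcd h1
    (Nat.dvd_of_mem_primeFactors p.2))

/-- The Weil data at `p`. -/
def loc (p : PIdx D) : WeilData p.1 (Vd (ZMod p.1)) R :=
  hermWeil (c.locψ p) (fun _ hx => c.locψ_sum p hx) (c.isUnit_pIdx p) (c.three_ne_zero_pIdx p)

theorem loc_toQuadData (p : PIdx D) : (c.loc p).toQuadData = vdForm p.1 := rfl

/-- **The Weil representation of level `D`**, the product of the local ones. -/
def rep : Representation R SL(2, ℤ) (Vd (ZMod D) → R) where
  toFun g := (LinearMap.funLeft R R c.vdEquiv).comp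
    ((WeilData.piRep c.loc g).comp (LinearMap.funLeft R R c.vdEquiv.symm))
  map_one' := LinearMap.ext fun f => funext fun v => by
    simp [LinearMap.funLeft_apply]
  map_mul' g h := LinearMap.ext fun f => by
    have e : ∀ F, LinearMap.funLeft R R c.vdEquiv.symm (LinearMap.funLeft R R c.vdEquiv F) = F :=
      fun F => funext fun w => congrArg F (c.vdEquiv.apply_symm_apply w)
    simp only [LinearMap.comp_apply, Module.End.mul_apply, map_mul, e]

/-- The matrix entries of the representation. -/
def ker (g : SL(2, ℤ)) (v w : Vd (ZMod D)) : R :=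
  ∏ p, (c.loc p).weilMat g (mapVd (toP p) v) (mapVd (toP p) w)

/-- The representation is given by the kernel. -/
theorem rep_apply (g : SL(2, ℤ)) (f : Vd (ZMod D) → R) (v : Vd (ZMod D)) :
    c.rep g f v = ∑ w, c.ker g v w * f w := by
  show WeilData.piRep c.loc g (LinearMap.funLeft R R c.vdEquiv.symm f) (c.vdEquiv v) = _
  rw [WeilData.piRep_apply]
  refine (Fintype.sum_equiv c.vdEquiv _ _ fun w => ?_).symm
  rw [LinearMap.funLeft_apply, Equiv.symm_apply_apply]
  rfl

/-- The representation is trivial on `Γ(D)`. -/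
theorem rep_of_mem_Gamma {g : SL(2, ℤ)} (hg : g ∈ CongruenceSubgroup.Gamma D) : c.rep g = 1 := by
  refine LinearMap.ext fun f => funext fun v => ?_
  show WeilData.piRep c.loc g _ (c.vdEquiv v) = _
  rw [WeilData.piRep_of_mem_Gamma c.loc (by rwa [prod_pIdx c.sq]), Module.End.one_apply,
    LinearMap.funLeft_apply, Equiv.symm_apply_apply]
  rfl

omit [NeZero D] [CommRing R] [IsDomain R] c in
theorem toP_Q (p : PIdx D) (v : Vd (ZMod D)) :
    toP p ((vdForm D).Q v) = (vdForm p.1).Q (mapVd (toP p) v) := by
  simp [vdForm, mapVd]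

omit [NeZero D] [CommRing R] [IsDomain R] c in
theorem toP_B (p : PIdx D) (v w : Vd (ZMod D)) :
    toP p ((vdForm D).B v w) = (vdForm p.1).B (mapVd (toP p) v) (mapVd (toP p) w) := by
  simp [vdForm, mapVd, map_ofNat]

theorem ker_T_zpow (n : ℤ) (v w : Vd (ZMod D)) :
    c.ker (T ^ n) v w = if w = v then c.ψ ((n : ZMod D) * (vdForm D).Q v) else 0 := by
  have e : ∀ p : PIdx D, WeilData.redQ p.1 (T ^ n) = WeilData.transl (n : ZMod p.1) := fun p => by
    ext i j
    rw [WeilData.redQ_entry, coe_T_zpow, WeilData.coe_transl]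
    fin_cases i <;> fin_cases j <;> simp
  simp only [ker, WeilData.weilMat_apply, e, WeilData.kernel_transl]
  split_ifs with h
  · subst h
    rw [← c.prod_locψ_toP]
    refine Finset.prod_congr rfl fun p _ => ?_
    rw [if_pos rfl]
    show c.locψ p ((n : ZMod p.1) * (vdForm p.1).Q (mapVd (toP p) w)) = _
    rw [← toP_Q, ← map_intCast (toP p), ← map_mul]
  · obtain ⟨p, hp⟩ := Function.ne_iff.mp (c.vdEquiv.injective.ne h)
    exact Finset.prod_eq_zero (Finset.mem_univ p) (if_neg hp)

theorem rep_T_zpow (n : ℤ) (f : Vd (ZMod D) → R) (v : Vd (ZMod D)) :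
    c.rep (T ^ n) f v = c.ψ ((n : ZMod D) * (vdForm D).Q v) * f v := by
  simp [rep_apply, ker_T_zpow]

/-- `T` multiplies by the character of the form. -/
theorem rep_T (f : Vd (ZMod D) → R) (v : Vd (ZMod D)) :
    c.rep T f v = c.ψ ((vdForm D).Q v) * f v := by
  simpa using c.rep_T_zpow 1 f v

theorem rep_neg_one (f : Vd (ZMod D) → R) (v : Vd (ZMod D)) : c.rep (-1) f v = f (-v) := by
  rw [rep_apply, Finset.sum_eq_single (-v)]
  · have e : c.ker (-1) v (-v) = 1 := Finset.prod_eq_one fun p _ => by
      rw [WeilData.weilMat_apply, WeilData.kernel_of_eq_zero _ (by simp [WeilData.redQ]),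
        if_pos (by simp [WeilData.redQ, mapVd]),
        show WeilData.redQ p.1 (-1) 0 1 = 0 by simp [WeilData.redQ], mul_zero, zero_mul,
        AddChar.map_zero_eq_one]
    rw [e, one_mul]
  · intro w _ hw
    obtain ⟨p, hp⟩ := Function.ne_iff.mp (c.vdEquiv.injective.ne hw)
    rw [ker, Finset.prod_eq_zero (Finset.mem_univ p), zero_mul]
    rw [WeilData.weilMat_apply, WeilData.kernel_of_eq_zero _ (by simp [WeilData.redQ]), if_neg]
    intro h
    refine hp ?_
    rw [c.vdEquiv_apply, c.vdEquiv_apply, h]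
    simp [WeilData.redQ, mapVd]
  · simp

/-- The constant in front of the Fourier transform `rep S`: the product of the local ones. -/
def uD : R := ∏ p : PIdx D, (c.loc p).u

theorem uD_sq : c.uD ^ 2 * (D : R) ^ 4 = 1 := by
  conv_lhs => arg 2; rw [← prod_pIdx c.sq]
  rw [uD, Nat.cast_prod, ← Finset.prod_pow, ← Finset.prod_pow, ← Finset.prod_mul_distrib]
  refine Finset.prod_eq_one fun p _ => ?_
  have h := (c.loc p).u_sq
  simp only [Fintype.card_prod, ZMod.card, Nat.cast_mul] at h
  linear_combination h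

theorem ker_S (v w : Vd (ZMod D)) : c.ker S v w = c.uD * c.ψ (-(vdForm D).B v w) := by
  simp only [ker, WeilData.weilMat_apply, WeilData.redQ_S, WeilData.kernel_invol]
  rw [Finset.prod_mul_distrib, ← c.prod_locψ_toP, uD]
  congr 1
  refine Finset.prod_congr rfl fun p _ => ?_
  show c.locψ p (-(vdForm p.1).B (mapVd (toP p) v) (mapVd (toP p) w)) = _
  rw [← toP_B, ← map_neg]

/-- `S` is the Fourier transform of the bilinear form. -/
theorem rep_S (f : Vd (ZMod D) → R) (v : Vd (ZMod D)) :
    c.rep S f v = c.uD * ∑ w, c.ψ (-(vdForm D).B v w) * f w := by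
  simp only [rep_apply, ker_S, Finset.mul_sum, mul_assoc]

omit c in
theorem lowAct_add (p : ℕ) (x r y : EisQ (ZMod p)) (v w : Vd (ZMod p)) :
    lowAct x r y (v + w) = lowAct x r y v + lowAct x r y w := by
  refine Prod.ext ?_ (Prod.ext (Prod.ext ?_ ?_) ?_) <;>
    simp only [lowAct, midE, trE, QuadraticAlgebra.re_add, QuadraticAlgebra.im_add,
      QuadraticAlgebra.re_smul, QuadraticAlgebra.im_smul, QuadraticAlgebra.re_mul,
      QuadraticAlgebra.im_mul, QuadraticAlgebra.re_star, QuadraticAlgebra.im_star, smul_eq_mul,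
      Prod.fst_add, Prod.snd_add] <;> ring

omit c in
theorem lowAct_smul (p : ℕ) (x r y : EisQ (ZMod p)) (t : ZMod p) (v : Vd (ZMod p)) :
    lowAct x r y (t • v) = t • lowAct x r y v := by
  refine Prod.ext ?_ (Prod.ext (Prod.ext ?_ ?_) ?_) <;>
    simp only [lowAct, midE, trE, QuadraticAlgebra.re_add, QuadraticAlgebra.im_add,
      QuadraticAlgebra.re_smul, QuadraticAlgebra.im_smul, QuadraticAlgebra.re_mul,
      QuadraticAlgebra.im_mul, QuadraticAlgebra.re_star, QuadraticAlgebra.im_star, smul_eq_mul,
      Prod.smul_fst, Prod.smul_snd] <;> ring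

omit c in
theorem lowAct_injective {p : ℕ} [Fact p.Prime] {x r y : EisQ (ZMod p)} (h : x * y = 1) :
    Function.Injective (lowAct x r y) := by
  have h0 : ∀ v, lowAct x r y v = 0 → v = 0 := fun v hv => by
    have hn : x.norm * y.norm = 1 := by rw [← map_mul, h, map_one]
    have ha : v.1 = 0 :=
      (mul_eq_zero.mp (congrArg Prod.fst hv)).resolve_left (left_ne_zero_of_mul_eq_one hn)
    have hm : x * star y * midE v = 0 := by
      have h1 := congrArg (fun u : Vd (ZMod p) => u.2.1) hv
      simp only [lowAct, ha, zero_smul, zero_add, Prod.snd_zero, Prod.fst_zero] at h1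
      exact QuadraticAlgebra.ext (congrArg Prod.fst h1) (congrArg Prod.snd h1)
    have hs : star x * star y = 1 := by rw [← star_mul', h, star_one]
    have hmid : midE v = 0 := by
      have := congrArg (fun u => y * star x * u) hm
      simp only [mul_zero] at this
      linear_combination this - (star x * star y * midE v) * h - (midE v) * hs
    have hd : v.2.2 = 0 := by
      have h1 := congrArg (fun u : Vd (ZMod p) => u.2.2) hv
      simp only [lowAct, ha, hmid, mul_zero, trE, QuadraticAlgebra.re_zero,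
        QuadraticAlgebra.im_zero, sub_zero, zero_add, Prod.snd_zero] at h1
      exact (mul_eq_zero.mp h1).resolve_left (right_ne_zero_of_mul_eq_one hn)
    exact Prod.ext ha (Prod.ext (Prod.ext (congrArg QuadraticAlgebra.re hmid)
      (congrArg QuadraticAlgebra.im hmid)) hd)
  intro v w hvw
  have e : lowAct x r y ((-1 : ZMod p) • w) = (-1 : ZMod p) • lowAct x r y w :=
    lowAct_smul p x r y _ w
  have := h0 (v + (-1 : ZMod p) • w) (by rw [lowAct_add, e, hvw, neg_one_smul, add_neg_cancel])
  rwa [neg_one_smul, ← sub_eq_add_neg, sub_eq_zero] at this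

theorem kernel_comp_low (p : PIdx D) {x r y : EisQ (ZMod p.1)} (h : x * y = 1)
    (g : SL(2, ℤ)) (z w : Vd (ZMod p.1)) :
    (c.loc p).weilMat g (lowAct x r y z) (lowAct x r y w) = (c.loc p).weilMat g z w := by
  have hQ : ∀ v, (c.loc p).Q (lowAct x r y v) = (c.loc p).Q v := fun v => lowAct_Q h v
  have hB : ∀ u v, (c.loc p).B (lowAct x r y u) (lowAct x r y v) = (c.loc p).B u v := fun u v => by
    have h1 := (c.loc p).toQuadData.Q_add (lowAct x r y u) (lowAct x r y v)
    rw [← lowAct_add, hQ, hQ, hQ, (c.loc p).toQuadData.Q_add] at h1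
    linear_combination -h1
  simp only [WeilData.weilMat_apply, WeilData.kernel, hQ, hB, ← lowAct_smul,
    (lowAct_injective h).eq_iff]

omit [IsDomain R] in
theorem lowAct_bijective {x r y : EisQ (ZMod D)} (h : x * y = 1) :
    Function.Bijective (lowAct x r y) := by
  have hp : ∀ p : PIdx D, mapE (toP p) x * mapE (toP p) y = 1 := fun p => by
    rw [← mapE_mul, h, mapE_one]
  exact Finite.injective_iff_bijective.mp fun v w e =>
    c.vdEquiv.injective (funext fun p => lowAct_injective (hp p) (by
      rw [c.vdEquiv_apply, c.vdEquiv_apply, ← mapVd_lowAct, ← mapVd_lowAct, e]))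

/-- The representation commutes with lower triangular matrices of determinant one. -/
theorem rep_comp_low {x r y : EisQ (ZMod D)} (h : x * y = 1) (g : SL(2, ℤ))
    (f : Vd (ZMod D) → R) :
    c.rep g (f ∘ lowAct x r y) = c.rep g f ∘ lowAct x r y := by
  have hp : ∀ p : PIdx D, mapE (toP p) x * mapE (toP p) y = 1 := fun p => by
    rw [← mapE_mul, h, mapE_one]
  have hk : ∀ v w, c.ker g (lowAct x r y v) (lowAct x r y w) = c.ker g v w := fun v w =>
    Finset.prod_congr rfl fun p _ => by rw [mapVd_lowAct, mapVd_lowAct, c.kernel_comp_low p (hp p)]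
  funext v
  rw [Function.comp_apply, rep_apply, rep_apply]
  refine Fintype.sum_bijective _ (c.lowAct_bijective (r := r) h) _ _ fun w => ?_
  rw [hk, Function.comp_apply]

/-- **Invariant functions lie in the span of the translates.** -/
theorem mem_transSpan {f : Vd (ZMod D) → R}
    (hf : ∀ x r y : EisQ (ZMod D), x * y = 1 → ∀ v, f (lowAct x r y v) = f v) :
    f ∈ transSpan c.rep D := by
  have h1 : LinearMap.funLeft R R c.vdEquiv.symm f ∈
      transSpan (WeilData.piRep c.loc) (∏ p : PIdx D, p.1) := by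
    refine WeilData.pi_mem_transSpan_of_factor c.loc (pIdx_coprime D)
      (fun p => fun x hx => c.locψ_sum p hx) c.isUnit_pIdx (fun p => vdE0 p.1)
      (fun p => vdForm_Q_e0 p.1) fun z w hzw => ?_
    choose x r y hxy hact using fun p => lowRel_of_cls (c.three_ne_zero_pIdx p) (hzw p)
    set X : EisQ (ZMod D) := ⟨c.crt.symm fun p => (x p).re, c.crt.symm fun p => (x p).im⟩
    set R' : EisQ (ZMod D) := ⟨c.crt.symm fun p => (r p).re, c.crt.symm fun p => (r p).im⟩
    set Y : EisQ (ZMod D) := ⟨c.crt.symm fun p => (y p).re, c.crt.symm fun p => (y p).im⟩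
    have hX : ∀ p, mapE (toP p) X = x p := fun p => by simp [X, mapE, toP_crt_symm]
    have hR : ∀ p, mapE (toP p) R' = r p := fun p => by simp [R', mapE, toP_crt_symm]
    have hY : ∀ p, mapE (toP p) Y = y p := fun p => by simp [Y, mapE, toP_crt_symm]
    have hXY : X * Y = 1 := by
      have hp : ∀ p, mapE (toP p) (X * Y) = mapE (toP p) 1 := fun p => by
        rw [mapE_mul, hX, hY, hxy, mapE_one]
      exact QuadraticAlgebra.ext (c.ext_toP fun p => congrArg QuadraticAlgebra.re (hp p))
        (c.ext_toP fun p => congrArg QuadraticAlgebra.im (hp p))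
    rw [LinearMap.funLeft_apply, LinearMap.funLeft_apply, ← hf X R' Y hXY (c.vdEquiv.symm z)]
    congr 1
    refine c.vdEquiv.injective (funext fun p => ?_)
    rw [Equiv.apply_symm_apply, c.vdEquiv_apply, mapVd_lowAct, hX, hR, hY, ← c.vdEquiv_apply,
      Equiv.apply_symm_apply, hact]
  rw [prod_pIdx c.sq] at h1
  have h2 : f = LinearMap.funLeft R R c.vdEquiv (LinearMap.funLeft R R c.vdEquiv.symm f) :=
    funext fun v => (congrArg f (c.vdEquiv.symm_apply_apply v)).symm
  rw [h2]
  refine Submodule.span_induction (p := fun x _ => LinearMap.funLeft R R c.vdEquiv x ∈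
    transSpan c.rep D) ?_ (by simp) (fun a b _ _ ha hb => by rw [map_add]; exact add_mem ha hb)
    (fun t a _ ha => by rw [map_smul]; exact Submodule.smul_mem _ t ha) h1
  rintro _ ⟨g, φ, hφ, rfl⟩
  have e : ∀ g' φ', c.rep g' (LinearMap.funLeft R R c.vdEquiv φ') =
      LinearMap.funLeft R R c.vdEquiv (WeilData.piRep c.loc g' φ') := fun g' φ' => by
    show LinearMap.funLeft R R c.vdEquiv (WeilData.piRep c.loc g' _) = _
    congr 2
    exact funext fun w => congrArg φ' (c.vdEquiv.apply_symm_apply w)
  rw [← e]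
  exact rep_mem_transSpan c.rep D g (mem_transSpan_of_fixed c.rep D fun k hk => by
    rw [e, hφ k hk])

section Map

variable {R₁ : Type} [CommRing R₁] [IsDomain R₁] (f : R →+* R₁)

/-- The representation commutes with a change of coefficient ring. -/
theorem map_rep (c₁ : VdChar D R₁) (hψ : ∀ x, c₁.ψ x = f (c.ψ x)) (g : SL(2, ℤ))
    (φ : Vd (ZMod D) → R) : c₁.rep g (f ∘ φ) = f ∘ c.rep g φ := by
  have hcrt : c₁.crt = c.crt := rfl
  have hloc : ∀ p x, c₁.locψ p x = f (c.locψ p x) := fun p x => by
    rw [locψ_apply, locψ_apply, hcrt, hψ]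
  have hk : ∀ p z w, (c₁.loc p).weilMat g z w = f ((c.loc p).weilMat g z w) := by
    intro p z w
    have hψp : ∀ x, (c₁.loc p).ψ x = f ((c.loc p).ψ x) := hloc p
    have hu : (c₁.loc p).u = f (c.loc p).u := by
      have h1 := (c₁.loc p).gauss 1 one_ne_zero
      have h2 := congrArg f ((c.loc p).gauss 1 one_ne_zero)
      rw [map_mul, map_sum, map_one] at h2
      simp only [hψp, loc_toQuadData] at h1 h2
      linear_combination f (c.loc p).u * h1 - (c₁.loc p).u * h2
    simp only [WeilData.weilMat_apply, WeilData.kernel, hψp, hu]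
    show (if WeilData.redQ p.1 g 1 0 = 0 then _ else _) =
      f (if WeilData.redQ p.1 g 1 0 = 0 then _ else _)
    split_ifs <;> simp [loc_toQuadData]
  funext v
  simp only [rep_apply, ker, Function.comp_apply, map_sum, map_mul, map_prod, hk]

end Map

end VdChar

end Fermat.Agent.Raising.SquareRemoval
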