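import Mathlib.Algebra.Field.ZMod
import Mathlib.Algebra.Group.AddChar
import Mathlib.LinearAlgebra.Matrix.ToLin
import Mathlib.NumberTheory.ModularForms.CongruenceSubgroups
import Mathlib.RepresentationTheory.Basic
import Fermat.Agent.Grp.Elements

/-!
# The Weil representation of a quadratic space over `ℤ/q`

The kernel is defined directly on `SL(2, ℤ/q)`, so it is trivial on `Γ(q)` by construction; it is
multiplicative because it is so for right multiplication by translations and the inversion.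
-/

noncomputable section

namespace Fermat.Agent.Raising.SquareRemoval

open scoped MatrixGroups
open ModularGroup Matrix

/-- A quadratic form with its polar form. -/
structure QuadData (q : ℕ) (M : Type*) [AddCommGroup M] [Module (ZMod q) M] where
  /-- The form. -/
  Q : M → ZMod q
  /-- The polar form. -/
  B : M → M → ZMod q
  Q_add : ∀ v w, Q (v + w) = Q v + Q w + B v w
  Q_smul : ∀ (t : ZMod q) v, Q (t • v) = t ^ 2 * Q v
  B_add_left : ∀ u v w, B (u + v) w = B u w + B v w
  B_smul_left : ∀ (t : ZMod q) v w, B (t • v) w = t * B v w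

namespace QuadData

variable {q : ℕ} {M : Type*} [AddCommGroup M] [Module (ZMod q) M] (D : QuadData q M)

theorem B_comm (v w : M) : D.B v w = D.B w v := by
  have h1 := D.Q_add v w
  have h2 := D.Q_add w v
  rw [add_comm w v, h1] at h2
  linear_combination h2

theorem B_add_right (u v w : M) : D.B u (v + w) = D.B u v + D.B u w := by
  rw [D.B_comm, D.B_add_left, D.B_comm v, D.B_comm w]

theorem B_smul_right (t : ZMod q) (v w : M) : D.B v (t • w) = t * D.B v w := by
  rw [D.B_comm, D.B_smul_left, D.B_comm]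

theorem Q_zero : D.Q 0 = 0 := by simpa using D.Q_smul 0 0

theorem B_zero_left (v : M) : D.B 0 v = 0 := by simpa using D.B_smul_left 0 0 v

theorem B_zero_right (v : M) : D.B v 0 = 0 := by rw [D.B_comm, D.B_zero_left]

theorem B_self (v : M) : D.B v v = 2 * D.Q v := by
  have h := D.Q_smul 2 v
  rw [two_smul, D.Q_add] at h
  linear_combination h

theorem B_neg_left (v w : M) : D.B (-v) w = -D.B v w := by
  rw [← neg_one_smul (ZMod q) v, D.B_smul_left, neg_one_mul]

end QuadData

/-- A quadratic space over `ℤ/q` with a character and an inverse Gauss sum: what makes the kernel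
a representation. -/
structure WeilData (q : ℕ) (M : Type*) [AddCommGroup M] [Module (ZMod q) M] [Fintype M]
    (R : Type*) [CommRing R] extends QuadData q M where
  /-- The additive character. -/
  ψ : AddChar (ZMod q) R
  /-- The inverse Gauss sum. -/
  u : R
  sum_ψ : ∀ v : M, v ≠ 0 → ∑ w : M, ψ (toQuadData.B v w) = 0
  gauss : ∀ A : ZMod q, A ≠ 0 → u * ∑ w : M, ψ (A * toQuadData.Q w) = 1
  u_sq : u ^ 2 * (Fintype.card M : R) = 1

namespace WeilData

variable {q : ℕ} {M : Type*} [AddCommGroup M] [Module (ZMod q) M] [Fintype M]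
  {R : Type*} [CommRing R] (D : WeilData q M R)

theorem sum_ψ_B (v : M) [Decidable (v = 0)] :
    ∑ w : M, D.ψ (D.B v w) = if v = 0 then (Fintype.card M : R) else 0 := by
  split_ifs with h
  · simp [h, QuadData.B_zero_left]
  · exact D.sum_ψ v h

variable [Fact q.Prime] [DecidableEq M]

/-- The kernel of the representation, on `SL(2, ℤ/q)`. -/
def kernel (g : SL(2, ZMod q)) : Matrix M M R := fun z w =>
  if g 1 0 = 0 then (if w = g 0 0 • z then D.ψ (g 0 0 * g 0 1 * D.Q z) else 0)
  else D.u * D.ψ ((g 1 0)⁻¹ * (g 0 0 * D.Q z - D.B z w + g 1 1 * D.Q w))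

theorem kernel_of_eq_zero {g : SL(2, ZMod q)} (hc : g 1 0 = 0) (z w : M) :
    D.kernel g z w = if w = g 0 0 • z then D.ψ (g 0 0 * g 0 1 * D.Q z) else 0 := if_pos hc

theorem kernel_of_ne_zero {g : SL(2, ZMod q)} (hc : g 1 0 ≠ 0) (z w : M) :
    D.kernel g z w =
      D.u * D.ψ ((g 1 0)⁻¹ * (g 0 0 * D.Q z - D.B z w + g 1 1 * D.Q w)) := if_neg hc

theorem kernel_one : D.kernel 1 = 1 := by
  ext z w
  rw [kernel_of_eq_zero D (by simp), Matrix.one_apply]
  simp [eq_comm]

/-- The matrix `!![1, x; 0, 1]` over `ℤ/q`. -/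
def transl (x : ZMod q) : SL(2, ZMod q) := ⟨!![1, x; 0, 1], by simp [Matrix.det_fin_two_of]⟩

/-- The matrix `!![0, -1; 1, 0]` over `ℤ/q`. -/
def invol : SL(2, ZMod q) := ⟨!![0, -1; 1, 0], by simp [Matrix.det_fin_two_of]⟩

theorem coe_transl (x : ZMod q) : (transl x : Matrix (Fin 2) (Fin 2) (ZMod q)) = !![1, x; 0, 1] :=
  rfl

theorem coe_invol : ((invol : SL(2, ZMod q)) : Matrix (Fin 2) (Fin 2) (ZMod q)) = !![0, -1; 1, 0] :=
  rfl

theorem kernel_transl (x : ZMod q) (z w : M) :
    D.kernel (transl x) z w = if w = z then D.ψ (x * D.Q z) else 0 := by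
  rw [kernel_of_eq_zero D (by simp [transl])]
  simp [transl]

theorem kernel_invol (z w : M) : D.kernel invol z w = D.u * D.ψ (-D.B z w) := by
  rw [kernel_of_ne_zero D (by simp [invol])]
  simp [invol]

theorem kernel_mul_transl (g : SL(2, ZMod q)) (x : ZMod q) :
    D.kernel (g * transl x) = D.kernel g * D.kernel (transl x) := by
  ext z w
  have e00 : (g * transl x) 0 0 = g 0 0 := by
    simp [coe_transl, Matrix.SpecialLinearGroup.coe_mul, Matrix.mul_apply, Fin.sum_univ_two]
  have e01 : (g * transl x) 0 1 = g 0 0 * x + g 0 1 := by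
    simp [coe_transl, Matrix.SpecialLinearGroup.coe_mul, Matrix.mul_apply, Fin.sum_univ_two]
  have e10 : (g * transl x) 1 0 = g 1 0 := by
    simp [coe_transl, Matrix.SpecialLinearGroup.coe_mul, Matrix.mul_apply, Fin.sum_univ_two]
  have e11 : (g * transl x) 1 1 = g 1 0 * x + g 1 1 := by
    simp [coe_transl, Matrix.SpecialLinearGroup.coe_mul, Matrix.mul_apply, Fin.sum_univ_two]
  simp only [Matrix.mul_apply, kernel_transl, mul_ite, mul_zero, Finset.sum_ite_eq, Finset.mem_univ,
    if_true]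
  by_cases hc : g 1 0 = 0
  · rw [kernel_of_eq_zero D (e10.trans hc), kernel_of_eq_zero D hc, e00, e01]
    split_ifs with h
    · rw [← AddChar.map_add_eq_mul, h, D.Q_smul]
      congr 1
      ring
    · rw [zero_mul]
  · rw [kernel_of_ne_zero D (e10 ▸ hc), kernel_of_ne_zero D hc, e00, e10, e11, mul_assoc,
      ← AddChar.map_add_eq_mul]
    congr 2
    linear_combination (x * D.Q w) * inv_mul_cancel₀ hc

theorem kernel_mul_invol (g : SL(2, ZMod q)) :
    D.kernel (g * (invol : SL(2, ZMod q))) = D.kernel g * D.kernel invol := by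
  ext z w
  have e00 : (g * (invol : SL(2, ZMod q))) 0 0 = g 0 1 := by
    simp [coe_invol, Matrix.SpecialLinearGroup.coe_mul, Matrix.mul_apply, Fin.sum_univ_two]
  have e01 : (g * (invol : SL(2, ZMod q))) 0 1 = -g 0 0 := by
    simp [coe_invol, Matrix.SpecialLinearGroup.coe_mul, Matrix.mul_apply, Fin.sum_univ_two]
  have e10 : (g * (invol : SL(2, ZMod q))) 1 0 = g 1 1 := by
    simp [coe_invol, Matrix.SpecialLinearGroup.coe_mul, Matrix.mul_apply, Fin.sum_univ_two]
  have e11 : (g * (invol : SL(2, ZMod q))) 1 1 = -g 1 0 := by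
    simp [coe_invol, Matrix.SpecialLinearGroup.coe_mul, Matrix.mul_apply, Fin.sum_univ_two]
  have hdet : g 0 0 * g 1 1 - g 0 1 * g 1 0 = 1 := by rw [← Matrix.det_fin_two]; exact g.2
  simp only [Matrix.mul_apply, kernel_invol]
  by_cases hc : g 1 0 = 0
  · rw [hc, mul_zero, sub_zero] at hdet
    have hd : g 1 1 ≠ 0 := right_ne_zero_of_mul (hdet.trans_ne one_ne_zero)
    rw [kernel_of_ne_zero D (e10 ▸ hd), e00, e10, e11, hc]
    simp only [kernel_of_eq_zero D hc, ite_mul, zero_mul, Finset.sum_ite_eq', Finset.mem_univ,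
      if_true]
    rw [eq_comm, mul_left_comm, ← AddChar.map_add_eq_mul, D.B_smul_left]
    congr 2
    linear_combination -(g 0 1 * D.Q z - D.B z w) * (g 0 0 * mul_inv_cancel₀ hd -
      (g 1 1)⁻¹ * hdet)
  simp only [kernel_of_ne_zero D hc]
  by_cases hd : g 1 1 = 0
  · rw [kernel_of_eq_zero D (e10.trans hd), e00, e01, hd]
    have key : ∀ y : M, D.u * D.ψ ((g 1 0)⁻¹ * (g 0 0 * D.Q z - D.B z y + 0 * D.Q y)) *
        (D.u * D.ψ (-D.B y w)) = D.u ^ 2 * D.ψ ((g 1 0)⁻¹ * g 0 0 * D.Q z) *
          D.ψ (D.B (-((g 1 0)⁻¹ • z) - w) y) := fun y => by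
      rw [mul_mul_mul_comm, ← pow_two, mul_assoc, ← AddChar.map_add_eq_mul,
        ← AddChar.map_add_eq_mul]
      congr 2
      rw [sub_eq_add_neg (a := -((g 1 0)⁻¹ • z)), D.B_add_left, D.B_neg_left, D.B_smul_left,
        D.B_neg_left, D.B_comm w y]
      ring
    rw [Finset.sum_congr rfl fun y _ => key y, ← Finset.mul_sum, sum_ψ_B]
    rw [hd, mul_zero, zero_sub] at hdet
    have hb : g 0 1 = -(g 1 0)⁻¹ := by
      have := congrArg (fun t => t * (g 1 0)⁻¹) hdet
      simp only [neg_mul, mul_assoc, mul_inv_cancel₀ hc, mul_one, one_mul] at this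
      linear_combination -this
    have hiff : (-((g 1 0)⁻¹ • z) - w = 0) ↔ w = g 0 1 • z := by
      rw [sub_eq_zero, hb, neg_smul, eq_comm]
    rw [if_congr hiff rfl rfl, hb, mul_ite, mul_zero,
      mul_right_comm (D.u ^ 2) _ (Fintype.card M : R), D.u_sq, one_mul]
    exact if_congr Iff.rfl (congrArg D.ψ (by ring)) rfl
  · rw [kernel_of_ne_zero D (e10 ▸ hd), e00, e10, e11]
    set A := (g 1 0)⁻¹ * g 1 1 with hA
    have hA0 : A ≠ 0 := mul_ne_zero (inv_ne_zero hc) hd
    set m := (g 1 0)⁻¹ • z + w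
    have key : ∀ y : M, D.u * D.ψ ((g 1 0)⁻¹ * (g 0 0 * D.Q z - D.B z y + g 1 1 * D.Q y)) *
        (D.u * D.ψ (-D.B y w)) = D.u ^ 2 * D.ψ ((g 1 0)⁻¹ * g 0 0 * D.Q z) *
          D.ψ (A * D.Q y - D.B y m) := fun y => by
      rw [mul_mul_mul_comm, ← pow_two, mul_assoc, ← AddChar.map_add_eq_mul,
        ← AddChar.map_add_eq_mul]
      congr 2
      rw [D.B_add_right, D.B_smul_right, D.B_comm y z, hA]
      ring
    rw [Finset.sum_congr rfl fun y _ => key y, ← Finset.mul_sum]
    have hshift : ∀ y : M, A * D.Q (y + A⁻¹ • m) - D.B (y + A⁻¹ • m) m =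
        -(A⁻¹ * D.Q m) + A * D.Q y := fun y => by
      rw [D.Q_add, D.B_add_left, D.B_smul_left, D.B_smul_right, D.B_self, D.Q_smul]
      linear_combination (D.B y m + A⁻¹ * D.Q m) * mul_inv_cancel₀ hA0
    have e : ∑ y : M, D.ψ (A * D.Q y - D.B y m) =
        D.ψ (-(A⁻¹ * D.Q m)) * ∑ y : M, D.ψ (A * D.Q y) := by
      rw [← Equiv.sum_comp (Equiv.addRight (A⁻¹ • m)), Finset.mul_sum]
      refine Finset.sum_congr rfl fun y _ => ?_
      rw [Equiv.coe_addRight, hshift, AddChar.map_add_eq_mul]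
    rw [e, pow_two,
      show D.u * D.u * D.ψ ((g 1 0)⁻¹ * g 0 0 * D.Q z) *
          (D.ψ (-(A⁻¹ * D.Q m)) * ∑ y : M, D.ψ (A * D.Q y)) =
        D.u * (D.ψ ((g 1 0)⁻¹ * g 0 0 * D.Q z) * D.ψ (-(A⁻¹ * D.Q m))) *
          (D.u * ∑ y : M, D.ψ (A * D.Q y)) by ring,
      D.gauss A hA0, mul_one, ← AddChar.map_add_eq_mul]
    congr 2
    rw [D.Q_add, D.Q_smul, D.B_smul_left, hA, mul_inv, inv_inv]
    field_simp
    linear_combination -D.Q z * hdet

variable (q) in
/-- Reduction modulo `q`. -/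
abbrev redQ : SL(2, ℤ) →* SL(2, ZMod q) := SpecialLinearGroup.map (Int.castRingHom (ZMod q))

theorem redQ_T : redQ q T = transl 1 := by
  ext i j; fin_cases i <;> fin_cases j <;> simp [redQ, transl, coe_T]

theorem redQ_T_inv : redQ q T⁻¹ = transl (-1) := by
  ext i j; fin_cases i <;> fin_cases j <;> simp [redQ, transl, coe_T, Matrix.adjugate_fin_two]

theorem redQ_S : redQ q S = invol := by
  ext i j; fin_cases i <;> fin_cases j <;> simp [redQ, invol, coe_S]

theorem kernel_map_mul (h : SL(2, ℤ)) :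
    ∀ g : SL(2, ZMod q), D.kernel (g * redQ q h) = D.kernel g * D.kernel (redQ q h) := by
  have key : ∀ a b : SL(2, ZMod q), (∀ g, D.kernel (g * a) = D.kernel g * D.kernel a) →
      (∀ g, D.kernel (g * b) = D.kernel g * D.kernel b) →
      ∀ g, D.kernel (g * (a * b)) = D.kernel g * D.kernel (a * b) := fun a b ha hb g => by
    rw [← mul_assoc, hb, ha, hb a, mul_assoc]
  have hmem : h ∈ Subgroup.closure {S, T} := by simp [SpecialLinearGroup.SL2Z_generators]
  induction hmem using Subgroup.closure_induction'' with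
  | mem x hx =>
    rcases hx with rfl | rfl
    · rw [redQ_S]; exact fun g => D.kernel_mul_invol g
    · rw [redQ_T]; exact fun g => D.kernel_mul_transl g 1
  | inv_mem x hx =>
    rcases hx with rfl | rfl
    · rw [show S⁻¹ = S * S * S by decide, map_mul, map_mul, redQ_S]
      exact key _ _ (key _ _ (fun g => D.kernel_mul_invol g) fun g => D.kernel_mul_invol g)
        fun g => D.kernel_mul_invol g
    · rw [redQ_T_inv]; exact fun g => D.kernel_mul_transl g (-1)
  | one => intro g; rw [map_one, mul_one, kernel_one, mul_one]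
  | mul x y _ _ hx hy => rw [map_mul]; exact key _ _ hx hy

/-- The representation as matrices. -/
def weilMat : SL(2, ℤ) →* Matrix M M R where
  toFun g := D.kernel (redQ q g)
  map_one' := by rw [map_one, kernel_one]
  map_mul' g h := by rw [map_mul, kernel_map_mul]

theorem weilMat_apply (g : SL(2, ℤ)) : D.weilMat g = D.kernel (redQ q g) := rfl

/-- The matrices are trivial on `Γ(q)`. -/
theorem weilMat_of_mem_Gamma {g : SL(2, ℤ)} (hg : g ∈ CongruenceSubgroup.Gamma q) :
    D.weilMat g = 1 := by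
  rw [weilMat_apply, show redQ q g = 1 from MonoidHom.mem_ker.mp hg, kernel_one]

end WeilData

end Fermat.Agent.Raising.SquareRemoval
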