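import Fermat.Agent.Raising.SquareRemoval.Translates
import Fermat.Agent.Raising.SquareRemoval.Weil.Kernel

/-!
# Functions seen by translates of `Γ₀(q)`-fixed vectors

If a function is constant on the classes of `(Q, [B(·,e₀) = 0])` off the cone and is invariant
under scalars on the cone, it lies in the span of the translates of the fixed vectors; the same
then holds for products over several primes.
-/

noncomputable section

namespace Fermat.Agent.Raising.SquareRemoval

open scoped MatrixGroups
open ModularGroup CongruenceSubgroup Matrix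

/-- For a primitive additive character of `ZMod q` the sums `∑ t, ψ (t * x)` detect `x = 0`. -/
theorem sum_addChar_mul {q : ℕ} [NeZero q] {R : Type} [CommRing R] (ψ : AddChar (ZMod q) R)
    (hψ : ∀ x : ZMod q, x ≠ 0 → ∑ t : ZMod q, ψ (t * x) = 0) (x : ZMod q) :
    ∑ t : ZMod q, ψ (t * x) = if x = 0 then (q : R) else 0 := by
  split_ifs with h
  · simp [h]
  · exact hψ x h

namespace WeilData

section Single

variable {q : ℕ} [Fact q.Prime] {M : Type} [AddCommGroup M] [Module (ZMod q) M] [Fintype M]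
  [DecidableEq M] {R : Type} [CommRing R] (D : WeilData q M R)

/-- The representation on functions. -/
def rep : Representation R SL(2, ℤ) (M → R) where
  toFun g := Matrix.toLin' (D.weilMat g)
  map_one' := by rw [map_one, Matrix.toLin'_one]; rfl
  map_mul' g h := by rw [map_mul, Matrix.toLin'_mul]; rfl

theorem rep_apply (g : SL(2, ℤ)) (f : M → R) (z : M) :
    D.rep g f z = ∑ w, D.weilMat g z w * f w := rfl

theorem redQ_entry (g : SL(2, ℤ)) (i j : Fin 2) : redQ q g i j = ((g i j : ℤ) : ZMod q) := by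
  simp [redQ]

theorem rep_fixed_of_null {f : M → R} (hf : ∀ z, D.Q z ≠ 0 → f z = 0)
    (hs : ∀ (a : ZMod q), a ≠ 0 → ∀ z, D.Q z = 0 → f (a • z) = f z)
    {g : SL(2, ℤ)} (hg : g ∈ Gamma0 q) : D.rep g f = f := by
  have hc : redQ q g 1 0 = 0 := by rw [redQ_entry]; exact Gamma0_mem.mp hg
  have ha : redQ q g 0 0 ≠ 0 := fun h => by
    have hd := (redQ q g).2
    rw [Matrix.det_fin_two, hc, h] at hd
    simp at hd
  funext z
  rw [rep_apply]
  simp only [weilMat_apply, D.kernel_of_eq_zero hc, ite_mul, zero_mul, Finset.sum_ite_eq',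
    Finset.mem_univ, if_true]
  by_cases hz : D.Q z = 0
  · rw [hz, mul_zero, AddChar.map_zero_eq_one, one_mul, hs _ ha z hz]
  · rw [hf z hz, hf (redQ q g 0 0 • z) (by rw [D.Q_smul]; exact mul_ne_zero (pow_ne_zero 2 ha) hz),
      mul_zero]

theorem mem_transSpan_of_null {f : M → R} (hf : ∀ z, D.Q z ≠ 0 → f z = 0)
    (hs : ∀ (a : ZMod q), a ≠ 0 → ∀ z, D.Q z = 0 → f (a • z) = f z) : f ∈ transSpan D.rep q :=
  mem_transSpan_of_fixed D.rep q fun _ hg => D.rep_fixed_of_null hf hs hg

theorem rep_S (f : M → R) (z : M) : D.rep S f z = ∑ w, D.u * D.ψ (-D.B z w) * f w := by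
  rw [rep_apply]
  simp only [weilMat_apply, redQ_S, kernel_invol]

theorem rep_T_pow (t : ZMod q) (f : M → R) (z : M) :
    D.rep (T ^ (t.val : ℤ)) f z = D.ψ (t * D.Q z) * f z := by
  have e : redQ q (T ^ (t.val : ℤ)) = transl t := by
    ext i j
    rw [redQ_entry, coe_T_zpow, coe_transl]
    fin_cases i <;> fin_cases j <;> simp
  rw [rep_apply]
  simp only [weilMat_apply, e, kernel_transl, ite_mul, zero_mul, Finset.sum_ite_eq',
    Finset.mem_univ, if_true]

theorem const_mem : (fun _ => 1 : M → R) ∈ transSpan D.rep q := by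
  have h1 : (Pi.single 0 1 : M → R) ∈ transSpan D.rep q := D.mem_transSpan_of_null
    (fun z hz => Pi.single_eq_of_ne (fun h => hz (by rw [h]; exact D.Q_zero)) _)
    fun a ha z _ => by
      by_cases h : z = 0
      · rw [h, smul_zero]
      · rw [Pi.single_eq_of_ne h, Pi.single_eq_of_ne (smul_ne_zero ha h)]
  have h2 := Submodule.smul_mem _ (D.u * (Fintype.card M : R)) (rep_mem_transSpan D.rep q S h1)
  convert h2 using 1
  funext z
  rw [Pi.smul_apply, rep_S, Finset.sum_eq_single (0 : M) (fun w _ hw => by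
    rw [Pi.single_eq_of_ne hw, mul_zero]) (by simp), Pi.single_eq_same, D.B_zero_right, neg_zero,
    AddChar.map_zero_eq_one, mul_one, mul_one, smul_eq_mul]
  linear_combination -D.u_sq

/-- The character is primitive. -/
def IsPrim : Prop := ∀ x : ZMod q, x ≠ 0 → ∑ t : ZMod q, D.ψ (t * x) = 0

variable (hψ : D.IsPrim) (hq : IsUnit (q : R))
include hψ hq

theorem shell_mem (n : ZMod q) {φ : M → R} (hφ : φ ∈ transSpan D.rep q) :
    (fun z => if D.Q z = n then φ z else 0) ∈ transSpan D.rep q := by
  have h : ∑ t : ZMod q, (↑hq.unit⁻¹ * D.ψ (-(t * n))) • D.rep (T ^ (t.val : ℤ)) φ ∈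
      transSpan D.rep q :=
    Submodule.sum_mem _ fun t _ =>
      Submodule.smul_mem _ _ (rep_mem_transSpan D.rep q _ hφ)
  convert h using 1
  funext z
  simp only [Finset.sum_apply, Pi.smul_apply, rep_T_pow, smul_eq_mul]
  have e : ∀ t : ZMod q, ↑hq.unit⁻¹ * D.ψ (-(t * n)) * (D.ψ (t * D.Q z) * φ z) =
      ↑hq.unit⁻¹ * φ z * D.ψ (t * (D.Q z - n)) := fun t => by
    rw [sub_eq_add_neg, mul_add, mul_neg, AddChar.map_add_eq_mul]
    ring
  rw [Finset.sum_congr rfl fun t _ => e t, ← Finset.mul_sum, sum_addChar_mul D.ψ hψ]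
  by_cases hz : D.Q z = n
  · rw [if_pos hz, if_pos (sub_eq_zero.mpr hz), mul_right_comm, hq.val_inv_mul, one_mul]
  · rw [if_neg hz, if_neg (sub_ne_zero.mpr hz), mul_zero]

theorem perp_mem {e0 : M} (he0 : D.Q e0 = 0) :
    (fun z => if D.B z e0 = 0 then 1 else 0 : M → R) ∈ transSpan D.rep q := by
  have h1 : (fun w => ∑ t : ZMod q, if w = t • e0 then 1 else 0 : M → R) ∈ transSpan D.rep q :=
    D.mem_transSpan_of_null
      (fun z hz => Finset.sum_eq_zero fun t _ => if_neg fun h => hz (by
        rw [h, D.Q_smul, he0, mul_zero]))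
      fun a ha z _ => by
        rw [← Equiv.sum_comp (Equiv.mulLeft₀ a ha)
          (fun t : ZMod q => (if a • z = t • e0 then 1 else 0 : R))]
        refine Finset.sum_congr rfl fun t _ => if_congr ?_ rfl rfl
        rw [Equiv.mulLeft₀_apply, mul_smul]
        exact (smul_right_injective M ha).eq_iff
  have h2 := Submodule.smul_mem _ (↑hq.unit⁻¹ * (D.u * (Fintype.card M : R)))
    (rep_mem_transSpan D.rep q S h1)
  convert h2 using 1
  funext z
  rw [Pi.smul_apply, rep_S]
  simp only [Finset.mul_sum, mul_ite, mul_one, mul_zero]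
  rw [Finset.sum_comm]
  simp only [Finset.sum_ite_eq', Finset.mem_univ, if_true, D.B_smul_right, ← mul_neg]
  rw [← Finset.mul_sum, sum_addChar_mul D.ψ hψ, smul_eq_mul]
  by_cases hz : D.B z e0 = 0
  · rw [if_pos hz, if_pos (neg_eq_zero.mpr hz)]
    linear_combination (-(↑hq.unit⁻¹ * (q : R))) * D.u_sq - hq.val_inv_mul
  · rw [if_neg hz, if_neg (neg_ne_zero.mpr hz), mul_zero, mul_zero]

/-- **The criterion at one prime**: a function invariant under scalars on the cone that off it
depends only on `(Q z, [B z e0 = 0])` lies in the span. -/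
theorem mem_transSpan_of_factor {e0 : M} (he0 : D.Q e0 = 0) {f : M → R}
    (hs : ∀ (a : ZMod q), a ≠ 0 → ∀ z, D.Q z = 0 → f (a • z) = f z)
    (hf : ∀ z w, D.Q z ≠ 0 → D.Q z = D.Q w → (D.B z e0 = 0 ↔ D.B w e0 = 0) → f z = f w) :
    f ∈ transSpan D.rep q := by
  classical
  let α : ZMod q → Prop → R := fun n P =>
    if h : ∃ v, D.Q v = n ∧ ((D.B v e0 = 0) ↔ P) then f h.choose else 0
  have hα : ∀ z, D.Q z ≠ 0 → ∀ P : Prop, ((D.B z e0 = 0) ↔ P) → f z = α (D.Q z) P := by
    intro z hz P hP
    have h : ∃ v, D.Q v = D.Q z ∧ ((D.B v e0 = 0) ↔ P) := ⟨z, rfl, hP⟩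
    simp only [α, dif_pos h]
    exact hf z _ hz h.choose_spec.1.symm (hP.trans h.choose_spec.2.symm)
  have e : f = (fun z => if D.Q z = 0 then f z else 0) +
      ∑ n ∈ Finset.univ.erase (0 : ZMod q),
        (α n False • (fun z => if D.Q z = n then (1 : R) else 0) + (α n True - α n False) •
          fun z => if D.Q z = n then (if D.B z e0 = 0 then (1 : R) else 0) else 0) := by
    funext z
    simp only [Pi.add_apply, Finset.sum_apply, Pi.smul_apply, smul_eq_mul, mul_ite, mul_one,
      mul_zero]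
    rw [Finset.sum_add_distrib, Finset.sum_ite_eq, Finset.sum_ite_eq]
    by_cases hz : D.Q z = 0
    · simp [hz]
    · simp only [Finset.mem_erase, ne_eq, hz, not_false_eq_true, Finset.mem_univ, and_self,
        if_true]
      by_cases hB : D.B z e0 = 0
      · rw [if_pos hB, hα z hz True (iff_true_intro hB)]; simp
      · rw [if_neg hB, add_zero, hα z hz False (iff_false_intro hB)]; simp
  rw [e]
  refine add_mem (D.mem_transSpan_of_null (fun z hz => if_neg hz) fun a ha z hz => ?_)
    (Submodule.sum_mem _ fun n _ => add_mem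
      (Submodule.smul_mem _ _ (D.shell_mem hψ hq n D.const_mem))
      (Submodule.smul_mem _ _ (D.shell_mem hψ hq n (D.perp_mem hψ hq he0))))
  rw [if_pos hz, if_pos (by rw [D.Q_smul, hz, mul_zero]), hs a ha z hz]

end Single

section Classes

variable {q : ℕ} [Fact q.Prime] {M : Type} [AddCommGroup M] [Module (ZMod q) M] [Fintype M]
  [DecidableEq M] (D : QuadData q M) (e0 : M)

/-- The class of a vector: `(Q z, [B z e0 = 0])` off the cone, its orbit under units on it. -/
def cls (z : M) : (ZMod q × Bool) ⊕ Finset M :=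
  if D.Q z = 0 then Sum.inr (Finset.univ.filter fun w => ∃ a : (ZMod q)ˣ, w = (a : ZMod q) • z)
  else Sum.inl (D.Q z, decide (D.B z e0 = 0))

theorem cls_smul {z : M} (hz : D.Q z = 0) {a : ZMod q} (ha : a ≠ 0) :
    cls D e0 (a • z) = cls D e0 z := by
  rw [cls, cls, if_pos hz, if_pos (by rw [D.Q_smul, hz, mul_zero])]
  congr 1
  ext w
  simp only [Finset.mem_filter, Finset.mem_univ, true_and]
  constructor
  · rintro ⟨b, rfl⟩
    exact ⟨b * Units.mk0 a ha, by rw [smul_smul]; rfl⟩
  · rintro ⟨b, rfl⟩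
    exact ⟨b * (Units.mk0 a ha)⁻¹, by rw [smul_smul, Units.val_mul, Units.val_inv_eq_inv_val,
      Units.val_mk0, inv_mul_cancel_right₀ ha]⟩

theorem cls_congr {z w : M} (hz : D.Q z ≠ 0) (he : D.Q z = D.Q w)
    (hB : D.B z e0 = 0 ↔ D.B w e0 = 0) : cls D e0 z = cls D e0 w := by
  rw [cls, cls, if_neg hz, if_neg (he ▸ hz), he, decide_eq_decide.mpr hB]

theorem cls_eq_cases {z w : M} (h : cls D e0 z = cls D e0 w) :
    (D.Q z ≠ 0 ∧ D.Q z = D.Q w ∧ (D.B z e0 = 0 ↔ D.B w e0 = 0)) ∨
      (D.Q z = 0 ∧ ∃ a : ZMod q, a ≠ 0 ∧ w = a • z) := by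
  by_cases hz : D.Q z = 0
  · by_cases hw : D.Q w = 0
    · rw [cls, cls, if_pos hz, if_pos hw, Sum.inr.injEq] at h
      have hm : w ∈ Finset.univ.filter fun v => ∃ a : (ZMod q)ˣ, v = (a : ZMod q) • w :=
        Finset.mem_filter.mpr ⟨Finset.mem_univ _, 1, by rw [Units.val_one, one_smul]⟩
      rw [← h] at hm
      obtain ⟨a, ha⟩ := (Finset.mem_filter.mp hm).2
      exact Or.inr ⟨hz, a, a.ne_zero, ha⟩
    · rw [cls, cls, if_pos hz, if_neg hw] at h
      exact absurd h (by simp)
  · by_cases hw : D.Q w = 0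
    · rw [cls, cls, if_neg hz, if_pos hw] at h
      exact absurd h (by simp)
    · rw [cls, cls, if_neg hz, if_neg hw, Sum.inl.injEq, Prod.mk.injEq, decide_eq_decide] at h
      exact Or.inl ⟨hz, h.1, h.2⟩

end Classes

section Product

variable {ι : Type} [Fintype ι] [DecidableEq ι] {q : ι → ℕ} [∀ i, Fact (q i).Prime] {M : ι → Type}
  [∀ i, AddCommGroup (M i)] [∀ i, Module (ZMod (q i)) (M i)] [∀ i, Fintype (M i)]
  [∀ i, DecidableEq (M i)] {R : Type} [CommRing R] (W : ∀ i, WeilData (q i) (M i) R)

/-- The entrywise product over the primes of the local matrices. -/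
def piMat : SL(2, ℤ) →* Matrix (∀ i, M i) (∀ i, M i) R where
  toFun g z w := ∏ i, (W i).weilMat g (z i) (w i)
  map_one' := by
    ext z w
    simp only [map_one, Matrix.one_apply]
    by_cases h : z = w
    · simp [h]
    · obtain ⟨i, hi⟩ := Function.ne_iff.mp h
      rw [if_neg h]
      exact Finset.prod_eq_zero (Finset.mem_univ i) (by simp [hi])
  map_mul' g h := by
    ext z w
    simp only [map_mul, Matrix.mul_apply, Fintype.prod_sum, Finset.prod_mul_distrib]

theorem piMat_apply (g : SL(2, ℤ)) (z w : ∀ i, M i) :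
    piMat W g z w = ∏ i, (W i).weilMat g (z i) (w i) := rfl

/-- The product representation. -/
def piRep : Representation R SL(2, ℤ) ((∀ i, M i) → R) where
  toFun g := Matrix.toLin' (piMat W g)
  map_one' := by rw [map_one, Matrix.toLin'_one]; rfl
  map_mul' g h := by rw [map_mul, Matrix.toLin'_mul]; rfl

theorem piRep_apply (g : SL(2, ℤ)) (f : (∀ i, M i) → R) (z : ∀ i, M i) :
    piRep W g f z = ∑ w, piMat W g z w * f w := rfl

/-- The product representation is trivial on `Γ(∏ q i)`. -/
theorem piRep_of_mem_Gamma {g : SL(2, ℤ)} (hg : g ∈ CongruenceSubgroup.Gamma (∏ i, q i)) :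
    piRep W g = 1 := by
  have e : piMat W g = 1 := by
    rw [← (piMat W).map_one]
    ext z w
    refine Finset.prod_congr rfl fun i _ => ?_
    rw [(W i).weilMat_of_mem_Gamma
      (Gamma_le_Gamma_of_dvd (Finset.dvd_prod_of_mem q (Finset.mem_univ i)) hg), map_one]
  show Matrix.toLin' (piMat W g) = 1
  rw [e, Matrix.toLin'_one]; rfl

/-- The product `z ↦ ∏ i, f i (z i)` of functions of the factors. -/
def tens (f : ∀ i, M i → R) : (∀ i, M i) → R := fun z => ∏ i, f i (z i)

theorem piRep_tens (g : SL(2, ℤ)) (f : ∀ i, M i → R) :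
    piRep W g (tens f) = tens fun i => (W i).rep g (f i) := by
  funext z
  simp only [piRep_apply, piMat_apply, tens, rep_apply, Fintype.prod_sum,
    ← Finset.prod_mul_distrib]

omit [(i : ι) → AddCommGroup (M i)] [(i : ι) → Fintype (M i)] [(i : ι) → DecidableEq (M i)] in
theorem tens_update (f : ∀ i, M i → R) (a : ι) (v : M a → R) (z : ∀ i, M i) :
    tens (Function.update f a v) z = v (z a) * ∏ i ∈ Finset.univ.erase a, f i (z i) := by
  rw [tens, ← Finset.mul_prod_erase _ _ (Finset.mem_univ a), Function.update_self]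
  congr 1
  exact Finset.prod_congr rfl fun i hi => by
    rw [Function.update_of_ne (Finset.ne_of_mem_erase hi)]

/-- `tens` as a linear map in the factor `a`, the others fixed. -/
def tensAt (f : ∀ i, M i → R) (a : ι) : (M a → R) →ₗ[R] ((∀ i, M i) → R) where
  toFun v := tens (Function.update f a v)
  map_add' v w := funext fun z => by simp only [Pi.add_apply, tens_update]; ring
  map_smul' c v := funext fun z => by
    simp only [Pi.smul_apply, tens_update, RingHom.id_apply, smul_eq_mul]; ring

variable (hcop : Pairwise (Function.onFun Nat.Coprime q))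
include hcop

omit [Fintype ι] [∀ i, Fact (q i).Prime] in
theorem exists_simultaneous (h : ι → SL(2, ℤ)) (s : Finset ι) :
    ∃ g : SL(2, ℤ), ∀ i ∈ s, redQ (q i) g = redQ (q i) (h i) := by
  induction s using Finset.induction_on with
  | empty => exact ⟨1, by simp⟩
  | @insert a s ha ih =>
    obtain ⟨g, hg⟩ := ih
    have hc : Nat.Coprime (∏ i ∈ s, q i) (q a) :=
      Nat.Coprime.prod_left fun i hi => hcop fun e : i = a => ha (e ▸ hi)
    have := Gamma_normal (q a)
    have hm : g⁻¹ * h a ∈ CongruenceSubgroup.Gamma (∏ i ∈ s, q i) ⊔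
        CongruenceSubgroup.Gamma (q a) := by
      rw [Grp.Gamma_sup_Gamma_eq_top hc]; trivial
    obtain ⟨u, hu, v, hv, huv⟩ := Subgroup.mem_sup_of_normal_right.mp hm
    refine ⟨g * u, fun i hi => ?_⟩
    rcases Finset.mem_insert.mp hi with rfl | his
    · have : redQ (q i) v = 1 := MonoidHom.mem_ker.mp hv
      rw [show h i = g * (u * v) by rw [huv, mul_inv_cancel_left], map_mul _ g (u * v),
        map_mul _ u v, this, mul_one, ← map_mul]
    · have hu' : redQ (q i) u = 1 :=
        MonoidHom.mem_ker.mp (Gamma_le_Gamma_of_dvd (Finset.dvd_prod_of_mem q his) hu)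
      rw [map_mul, hu', mul_one, hg i his]

theorem tens_mem {f : ∀ i, M i → R} (hf : ∀ i, f i ∈ transSpan (W i).rep (q i)) :
    tens f ∈ transSpan (piRep W) (∏ i, q i) := by
  suffices H : ∀ (s : Finset ι) (f : ∀ i, M i → R),
      (∀ i ∈ s, f i ∈ transSpan (W i).rep (q i)) →
      (∀ i ∉ s, ∃ (h : SL(2, ℤ)) (v : M i → R),
        (∀ g ∈ Gamma0 (q i), (W i).rep g v = v) ∧ (W i).rep h v = f i) →
      tens f ∈ transSpan (piRep W) (∏ i, q i) from
    H Finset.univ f (fun i _ => hf i) fun i hi => absurd (Finset.mem_univ i) hi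
  intro s
  induction s using Finset.induction_on with
  | empty =>
    intro f _ hgen
    choose h v hv hh using fun i => hgen i (Finset.notMem_empty i)
    obtain ⟨g, hg⟩ := exists_simultaneous hcop h Finset.univ
    refine Submodule.subset_span ⟨g, tens v, fun x hx => ?_, ?_⟩
    · rw [piRep_tens]
      refine congrArg tens (funext fun i => hv i x ?_)
      rw [Gamma0_mem] at hx ⊢
      have hd : q i ∣ ∏ j, q j := Finset.dvd_prod_of_mem q (Finset.mem_univ i)
      simpa only [map_intCast, map_one, map_zero] using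
        congrArg (ZMod.castHom hd (ZMod (q i))) hx
    · rw [piRep_tens]
      refine congrArg tens (funext fun i => ?_)
      rw [← hh i]
      funext z
      simp only [rep_apply, weilMat_apply, hg i (Finset.mem_univ i)]
  | @insert a s ha ih =>
    intro f hs hgen
    have : f a ∈ (transSpan (piRep W) (∏ i, q i)).comap (tensAt f a) := by
      refine Submodule.span_le.mpr ?_ (hs a (Finset.mem_insert_self a s))
      rintro _ ⟨h, v, hv, rfl⟩
      refine ih _ (fun i hi => ?_) fun i hi => ?_
      · rw [Function.update_of_ne fun e : i = a => ha (e ▸ hi)]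
        exact hs i (Finset.mem_insert_of_mem hi)
      · by_cases hia : i = a
        · subst hia
          exact ⟨h, v, hv, by rw [Function.update_self]⟩
        · rw [Function.update_of_ne hia]
          exact hgen i fun hm => (Finset.mem_insert.mp hm).elim hia hi
    simpa [tensAt] using this

/-- **The criterion for products**: a function factoring through the classes at every prime lies
in the span of the translates. -/
theorem pi_mem_transSpan_of_factor (hψ : ∀ i, (W i).IsPrim) (hq : ∀ i, IsUnit (q i : R))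
    (e0 : ∀ i, M i) (he0 : ∀ i, (W i).Q (e0 i) = 0) {f : (∀ i, M i) → R}
    (hf : ∀ z w : ∀ i, M i,
      (∀ i, cls (W i).toQuadData (e0 i) (z i) = cls (W i).toQuadData (e0 i) (w i)) → f z = f w) :
    f ∈ transSpan (piRep W) (∏ i, q i) := by
  classical
  let κ : (∀ i, M i) → ∀ i, (ZMod (q i) × Bool) ⊕ Finset (M i) := fun z i =>
    cls (W i).toQuadData (e0 i) (z i)
  let F : (∀ i, (ZMod (q i) × Bool) ⊕ Finset (M i)) → R := fun c =>
    if h : ∃ z, κ z = c then f h.choose else 0
  have e : f = ∑ c ∈ Finset.univ.image κ, F c • tens fun i x =>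
      if cls (W i).toQuadData (e0 i) x = c i then (1 : R) else 0 := by
    funext z
    rw [Finset.sum_apply, Finset.sum_eq_single (κ z)]
    · rw [Pi.smul_apply, tens, Finset.prod_eq_one (fun i _ => if_pos rfl), smul_eq_mul, mul_one]
      have h : ∃ w, κ w = κ z := ⟨z, rfl⟩
      simp only [F, dif_pos h]
      exact hf _ _ fun i => (congrFun h.choose_spec i).symm
    · intro c _ hc
      obtain ⟨i, hi⟩ := Function.ne_iff.mp (Ne.symm hc)
      rw [Pi.smul_apply, tens, Finset.prod_eq_zero (Finset.mem_univ i) (if_neg hi), smul_zero]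
    · intro h; exact absurd (Finset.mem_image_of_mem κ (Finset.mem_univ z)) h
  rw [e]
  refine Submodule.sum_mem _ fun c _ => Submodule.smul_mem _ _ (tens_mem W hcop fun i => ?_)
  exact (W i).mem_transSpan_of_factor (hψ i) (hq i) (he0 i)
    (fun a ha z hz => by rw [cls_smul _ _ hz ha])
    fun z w hz he hB => by rw [cls_congr _ _ hz he hB]

end Product

end WeilData

end Fermat.Agent.Raising.SquareRemoval
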