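import Mathlib.Algebra.QuadraticAlgebra.Basic
import Mathlib.FieldTheory.Finite.Basic
import Mathlib.NumberTheory.LegendreSymbol.AddCharacter
import Mathlib.Tactic.LinearCombination
import Fermat.Agent.Raising.SquareRemoval.Weil.Gen

/-!
# Hermitian forms over `ℤ[ω] / q`

The local Weil data of `Q (a, β, δ) = N β - a δ`, and the orbits of lower triangular matrices of
determinant one on it.
-/

noncomputable section

namespace Fermat.Agent.Raising.SquareRemoval

open scoped MatrixGroups

/-- `ℤ[ω]` over `R`. -/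
abbrev EisQ (R : Type) [CommRing R] : Type := QuadraticAlgebra R (-1) (-1)

/-- Hermitian matrices `[[a, β], [β̄, δ]]` over `EisQ R`, as triples `(a, β, δ)`. -/
abbrev Vd (R : Type) : Type := R × (R × R) × R

section Ring

variable {R S : Type} [CommRing R] [CommRing S]

/-- The middle coordinate as a number. -/
def midE (v : Vd R) : EisQ R := ⟨v.2.1.1, v.2.1.2⟩

/-- The trace `z + z̄`. -/
def trE (z : EisQ R) : R := 2 * z.re - z.im

/-- The action of `[[x,0],[r,y]]` by `g X gᴴ`. -/
def lowAct (x r y : EisQ R) (v : Vd R) : Vd R :=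
  (x.norm * v.1,
    ((v.1 • (x * star r) + x * star y * midE v).re, (v.1 • (x * star r) + x * star y * midE v).im),
    r.norm * v.1 + trE (r * star y * midE v) + y.norm * v.2.2)

/-- Change of ring for triples. -/
def mapVd (f : R →+* S) (v : Vd R) : Vd S := (f v.1, (f v.2.1.1, f v.2.1.2), f v.2.2)

/-- Change of ring for numbers. -/
def mapE (f : R →+* S) (z : EisQ R) : EisQ S := ⟨f z.re, f z.im⟩

theorem mapE_mul (f : R →+* S) (z w : EisQ R) : mapE f (z * w) = mapE f z * mapE f w := by
  ext <;> simp [mapE, map_neg]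

theorem mapE_one (f : R →+* S) : mapE f 1 = 1 := by
  ext <;> simp [mapE, QuadraticAlgebra.re_one, QuadraticAlgebra.im_one]

theorem mapVd_lowAct (f : R →+* S) (x r y : EisQ R) (v : Vd R) :
    mapVd f (lowAct x r y v) = lowAct (mapE f x) (mapE f r) (mapE f y) (mapVd f v) := by
  refine Prod.ext ?_ (Prod.ext (Prod.ext ?_ ?_) ?_) <;>
    simp only [mapVd, lowAct, mapE, midE, trE, QuadraticAlgebra.norm_def, QuadraticAlgebra.re_add,
      QuadraticAlgebra.im_add, QuadraticAlgebra.re_smul, QuadraticAlgebra.im_smul,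
      QuadraticAlgebra.re_mul, QuadraticAlgebra.im_mul, QuadraticAlgebra.re_star,
      QuadraticAlgebra.im_star, smul_eq_mul, map_mul, map_add, map_neg, map_sub, map_ofNat, map_one]

end Ring

/-- The quadratic form `N β - a δ` modulo `n`. -/
def vdForm (n : ℕ) : QuadData n (Vd (ZMod n)) where
  Q v := v.2.1.1 ^ 2 - v.2.1.1 * v.2.1.2 + v.2.1.2 ^ 2 - v.1 * v.2.2
  B v w := (2 * v.2.1.1 - v.2.1.2) * w.2.1.1 + (2 * v.2.1.2 - v.2.1.1) * w.2.1.2 - v.2.2 * w.1 -
    v.1 * w.2.2
  Q_add v w := by simp only [Prod.fst_add, Prod.snd_add]; ring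
  Q_smul t v := by simp only [Prod.smul_fst, Prod.smul_snd, smul_eq_mul]; ring
  B_add_left u v w := by simp only [Prod.fst_add, Prod.snd_add]; ring
  B_smul_left t v w := by simp only [Prod.smul_fst, Prod.smul_snd, smul_eq_mul]; ring

theorem vdForm_Q {n : ℕ} (v : Vd (ZMod n)) :
    (vdForm n).Q v = (midE v).norm - v.1 * v.2.2 := by
  simp [vdForm, midE, QuadraticAlgebra.norm_def]; ring

/-- The isotropic vector `(0, 0, 1)`. -/
def vdE0 (n : ℕ) : Vd (ZMod n) := (0, (0, 0), 1)

theorem vdForm_Q_e0 (n : ℕ) : (vdForm n).Q (vdE0 n) = 0 := by simp [vdForm, vdE0]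

theorem vdForm_B_e0 {n : ℕ} (v : Vd (ZMod n)) : (vdForm n).B v (vdE0 n) = -v.1 := by
  simp [vdForm, vdE0]

theorem eq_one_of_ne_zero_zmod_two : ∀ s : ZMod 2, s ≠ 0 → (1 : ZMod 2) = s := by decide

section Local

variable {q : ℕ} [Fact q.Prime]

theorem eq_zero_of_pair (h3 : (3 : ZMod q) ≠ 0) {a b : ZMod q} (h1 : 2 * a - b = 0)
    (h2 : 2 * b - a = 0) : a = 0 ∧ b = 0 :=
  ⟨(mul_eq_zero.mp (show (3 : ZMod q) * a = 0 by linear_combination 2 * h1 + h2)).resolve_left h3,
    (mul_eq_zero.mp (show (3 : ZMod q) * b = 0 by linear_combination h1 + 2 * h2)).resolve_left h3⟩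

/-- The norm form of `ℤ[ω] / q` represents every non-zero residue. -/
theorem exists_norm_eq (h3 : (3 : ZMod q) ≠ 0) (t : ZMod q) (ht : t ≠ 0) :
    ∃ z : EisQ (ZMod q), z.norm = t := by
  rcases (Fact.out : q.Prime).eq_two_or_odd with h2 | h2
  · refine ⟨1, ?_⟩
    subst h2
    rw [map_one]
    exact eq_one_of_ne_zero_zmod_two t ht
  · have h20 : (2 : ZMod q) ≠ 0 := fun h => by
      have := Nat.le_of_dvd two_pos ((CharP.cast_eq_zero_iff (ZMod q) q 2).mp (by exact_mod_cast h))
      have := (Fact.out : q.Prime).two_le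
      omega
    obtain ⟨a, b, hab⟩ := FiniteField.exists_root_sum_quadratic
      (f := Polynomial.X ^ 2 - Polynomial.C t)
      (g := Polynomial.C ((3 : ZMod q) / 4) * Polynomial.X ^ 2)
      (Polynomial.degree_X_pow_sub_C two_pos t)
      (Polynomial.degree_C_mul_X_pow 2 (div_ne_zero h3 (by
        rw [show (4 : ZMod q) = 2 * 2 by norm_num]; exact mul_ne_zero h20 h20)))
      (by rw [ZMod.card]; exact h2)
    simp only [Polynomial.eval_sub, Polynomial.eval_pow, Polynomial.eval_X, Polynomial.eval_C,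
      Polynomial.eval_mul] at hab
    refine ⟨⟨a + b / 2, b⟩, ?_⟩
    rw [QuadraticAlgebra.norm_def]
    have h4 : (4 : ZMod q) = 2 * 2 := by norm_num
    rw [h4] at hab
    field_simp at hab ⊢
    linear_combination hab

end Local

section LowerTriangular

variable {q : ℕ} [Fact q.Prime]

/-- A number as a scalar. -/
abbrev cE (t : ZMod q) : EisQ (ZMod q) := algebraMap (ZMod q) (EisQ (ZMod q)) t

theorem re_cE (t : ZMod q) : (cE t).re = t := rfl

theorem im_cE (t : ZMod q) : (cE t).im = 0 := rfl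

theorem cE_one : cE (1 : ZMod q) = 1 := map_one _

theorem cE_zero : cE (0 : ZMod q) = 0 := map_zero _

theorem norm_cE (t : ZMod q) : (cE t).norm = t * t := by
  simp [QuadraticAlgebra.norm_def]

theorem mul_star_cE (z : EisQ (ZMod q)) : z * star z = cE z.norm :=
  (QuadraticAlgebra.algebraMap_norm_eq_mul_star z).symm

theorem add_star_cE (z : EisQ (ZMod q)) : z + star z = cE (trE z) := by
  refine QuadraticAlgebra.ext ?_ ?_ <;> simp [trE]; ring

/-- The inverse of a number of non-zero norm. -/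
def invE (x : EisQ (ZMod q)) : EisQ (ZMod q) := cE x.norm⁻¹ * star x

theorem mul_invE {x : EisQ (ZMod q)} (hx : x.norm ≠ 0) : x * invE x = 1 := by
  rw [invE, mul_left_comm, mul_star_cE, ← map_mul, inv_mul_cancel₀ hx, map_one]

theorem star_cE (t : ZMod q) : star (cE t) = cE t := by
  refine QuadraticAlgebra.ext ?_ ?_ <;> simp

theorem norm_invE {x : EisQ (ZMod q)} (hx : x.norm ≠ 0) : (invE x).norm = x.norm⁻¹ := by
  rw [invE, map_mul, norm_cE, QuadraticAlgebra.norm_star, mul_assoc, inv_mul_cancel₀ hx, mul_one]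

/-- Lower triangular matrices of determinant one preserve the form. -/
theorem lowAct_Q {x r y : EisQ (ZMod q)} (h : x * y = 1) (v : Vd (ZMod q)) :
    (vdForm q).Q (lowAct x r y v) = (vdForm q).Q v := by
  have hn : x.norm * y.norm = 1 := by rw [← map_mul, h, map_one]
  simp only [vdForm, lowAct, midE, trE, QuadraticAlgebra.norm_def, QuadraticAlgebra.re_add,
    QuadraticAlgebra.im_add, QuadraticAlgebra.re_mul, QuadraticAlgebra.im_mul,
    QuadraticAlgebra.re_star, QuadraticAlgebra.im_star, QuadraticAlgebra.re_smul,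
    QuadraticAlgebra.im_smul, smul_eq_mul] at hn ⊢
  linear_combination
    (v.2.1.1 ^ 2 - v.2.1.1 * v.2.1.2 + v.2.1.2 ^ 2 - v.1 * v.2.2) * hn

/-- `z` is moved to `w` by a lower triangular matrix of determinant one. -/
def LowRel (z w : Vd (ZMod q)) : Prop :=
  ∃ x r y : EisQ (ZMod q), x * y = 1 ∧ lowAct x r y z = w

theorem lowRel_of_fst_ne_zero (h3 : (3 : ZMod q) ≠ 0) {z w : Vd (ZMod q)} (hz : z.1 ≠ 0)
    (hw : w.1 ≠ 0) (hQ : (vdForm q).Q z = (vdForm q).Q w) : LowRel z w := by
  obtain ⟨x, hx⟩ := exists_norm_eq h3 (w.1 / z.1) (div_ne_zero hw hz)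
  have hx0 : x.norm ≠ 0 := hx ▸ div_ne_zero hw hz
  have hy := mul_invE hx0
  refine ⟨x, star (cE z.1⁻¹ * invE x * (midE w - x * star (invE x) * midE z)), invE x, hy, ?_⟩
  set r' := cE z.1⁻¹ * invE x * (midE w - x * star (invE x) * midE z)
  have h1 : (lowAct x (star r') (invE x) z).1 = w.1 := by
    show x.norm * z.1 = _
    rw [hx, div_mul_cancel₀ _ hz]
  have h2 : z.1 • (x * star (star r')) + x * star (invE x) * midE z = midE w := by
    rw [star_star, Algebra.smul_def, show cE z.1 * (x * r') =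
      cE z.1 * cE z.1⁻¹ * (x * invE x) * (midE w - x * star (invE x) * midE z) by ring, hy,
      ← map_mul, mul_inv_cancel₀ hz, map_one, one_mul, one_mul, sub_add_cancel]
  have h2' : (lowAct x (star r') (invE x) z).2.1 = w.2.1 := by
    simp only [lowAct, h2]
    rfl
  have hQ' := (lowAct_Q (r := star r') hy z).trans hQ
  simp only [vdForm, h1, h2'] at hQ'
  exact Prod.ext h1 (Prod.ext h2' (mul_left_cancel₀ hw (by linear_combination -hQ')))

theorem exists_trE_eq (h3 : (3 : ZMod q) ≠ 0) {γ : EisQ (ZMod q)} (hγ : γ ≠ 0) (t : ZMod q) :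
    ∃ r, trE (r * γ) = t := by
  obtain ⟨r, hr⟩ : ∃ r, trE (r * γ) ≠ 0 := by
    by_contra h
    push Not at h
    have h1 := h 1
    have h2 := h ⟨0, 1⟩
    simp only [trE, one_mul, QuadraticAlgebra.re_mul, QuadraticAlgebra.im_mul] at h1 h2
    have him : γ.im = 0 := by
      refine (mul_eq_zero.mp (show (3 : ZMod q) * γ.im = 0 from ?_)).resolve_left h3
      linear_combination -h1 - 2 * h2
    refine hγ (QuadraticAlgebra.ext ?_ him)
    rw [him] at h2
    show γ.re = 0
    linear_combination -h2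
  refine ⟨cE (t / trE (r * γ)) * r, ?_⟩
  have e : ∀ (c : ZMod q) (z : EisQ (ZMod q)), trE (cE c * z) = c * trE z := fun c z => by
    simp only [trE, QuadraticAlgebra.re_mul, QuadraticAlgebra.im_mul, re_cE, im_cE]
    ring
  rw [mul_assoc, e, div_mul_cancel₀ _ hr]

theorem lowRel_of_fst_eq_zero (h3 : (3 : ZMod q) ≠ 0) {z w : Vd (ZMod q)} (hz : z.1 = 0)
    (hw : w.1 = 0) (hβ : midE z ≠ 0) {x : EisQ (ZMod q)} (hx : x.norm ≠ 0)
    (hxz : x * x * midE z = cE x.norm * midE w) : LowRel z w := by
  have hy := mul_invE hx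
  have hs : star (invE x) = cE x.norm⁻¹ * x := by
    rw [invE, star_mul', star_cE, star_star]
  have hγ : star (invE x) * midE z ≠ 0 := fun h => hβ (by
    have h' := congrArg (star x * ·) h
    rwa [mul_zero, ← mul_assoc, ← star_mul', hy, star_one, one_mul] at h')
  obtain ⟨r, hr⟩ := exists_trE_eq h3 hγ (w.2.2 - (invE x).norm * z.2.2)
  refine ⟨x, r, invE x, hy, ?_⟩
  have h2 : z.1 • (x * star r) + x * star (invE x) * midE z = midE w := by
    rw [hz, zero_smul, zero_add, hs, mul_left_comm x, mul_assoc, hxz, ← mul_assoc, ← map_mul,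
      inv_mul_cancel₀ hx, map_one, one_mul]
  refine Prod.ext ?_ (Prod.ext ?_ ?_)
  · show x.norm * z.1 = w.1
    rw [hz, hw, mul_zero]
  · simp only [lowAct, h2]
    rfl
  · show r.norm * z.1 + trE (r * star (invE x) * midE z) + (invE x).norm * z.2.2 = w.2.2
    rw [hz, mul_zero, zero_add, mul_assoc r, hr, sub_add_cancel]

/-- **Vectors of one class are related** by lower triangular matrices. -/
theorem lowRel_of_cls (h3 : (3 : ZMod q) ≠ 0) {z w : Vd (ZMod q)}
    (h : WeilData.cls (vdForm q) (vdE0 q) z = WeilData.cls (vdForm q) (vdE0 q) w) :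
    LowRel z w := by
  rcases WeilData.cls_eq_cases _ _ h with ⟨hQ, he, hB⟩ | ⟨hQ, c, hc, rfl⟩
  · rw [vdForm_B_e0, vdForm_B_e0, neg_eq_zero, neg_eq_zero] at hB
    by_cases hz : z.1 = 0
    · have hw := hB.mp hz
      have hNz : (vdForm q).Q z = (midE z).norm := by rw [vdForm_Q, hz, zero_mul, sub_zero]
      have hNw : (vdForm q).Q w = (midE w).norm := by rw [vdForm_Q, hw, zero_mul, sub_zero]
      set n := (vdForm q).Q z
      set u := cE n⁻¹ * (midE w * star (midE z))
      have hun : u.norm = 1 := by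
        rw [map_mul, map_mul, norm_cE, QuadraticAlgebra.norm_star, ← hNw, ← hNz, ← he]
        field_simp
      have huz : u * midE z = midE w := by
        rw [show u * midE z = cE n⁻¹ * midE w * (midE z * star (midE z)) by simp only [u]; ring,
          mul_star_cE, ← hNz, mul_right_comm, ← map_mul, inv_mul_cancel₀ hQ, map_one, one_mul]
      have hβ : midE z ≠ 0 := fun h0 => hQ (by
        rw [show n = (midE z).norm from hNz, h0, QuadraticAlgebra.norm_def]; simp)
      by_cases hu : (u + 1).norm = 0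
      · -- then `u = -1`
        have hu1 : u = -1 := by
          rw [QuadraticAlgebra.norm_def] at hun hu
          simp only [QuadraticAlgebra.re_add, QuadraticAlgebra.im_add, QuadraticAlgebra.re_one,
            QuadraticAlgebra.im_one] at hu
          have him : u.im = 2 * u.re + 2 := by linear_combination hun - hu
          have hre : u.re + 1 = 0 := by
            refine pow_eq_zero_iff two_ne_zero |>.mp
              ((mul_eq_zero.mp (show (3 : ZMod q) * (u.re + 1) ^ 2 = 0 from ?_)).resolve_left h3)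
            rw [him] at hun
            linear_combination hun
          refine QuadraticAlgebra.ext ?_ ?_
          · simp [eq_neg_of_add_eq_zero_left hre, QuadraticAlgebra.re_one]
          · simp [him, eq_neg_of_add_eq_zero_left hre, QuadraticAlgebra.im_one]
        refine lowRel_of_fst_eq_zero h3 hz hw hβ (x := ⟨1, 2⟩) ?_ ?_
        · rw [QuadraticAlgebra.norm_def]
          intro h0
          exact h3 (by linear_combination h0)
        · rw [← huz, hu1]
          have e : (⟨1, 2⟩ : EisQ (ZMod q)) * ⟨1, 2⟩ = -cE (⟨1, 2⟩ : EisQ (ZMod q)).norm := by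
            refine QuadraticAlgebra.ext ?_ ?_ <;>
              simp [QuadraticAlgebra.norm_def, QuadraticAlgebra.re_one,
                QuadraticAlgebra.im_one] <;> ring
          rw [e]; ring
      · refine lowRel_of_fst_eq_zero h3 hz hw hβ (x := u + 1) hu ?_
        rw [← huz, ← mul_star_cE, star_add, star_one]
        have hus : u * star u = 1 := by rw [mul_star_cE, hun, cE_one]
        linear_combination -((u + 1) * midE z) * hus
    · exact lowRel_of_fst_ne_zero h3 hz (mt hB.mpr hz) he
  · by_cases hz : z.1 = 0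
    · have hw : (c • z).1 = 0 := by rw [Prod.smul_fst, hz, smul_zero]
      have hmid : midE (c • z) = cE c * midE z := by
        refine QuadraticAlgebra.ext ?_ ?_ <;> simp [midE]
      by_cases hβ : midE z = 0
      · obtain ⟨x, hx⟩ := exists_norm_eq h3 c⁻¹ (inv_ne_zero hc)
        have hx0 : x.norm ≠ 0 := hx ▸ inv_ne_zero hc
        refine ⟨x, 0, invE x, mul_invE hx0, ?_⟩
        have h0 : z.2.1 = 0 :=
          Prod.ext (congrArg QuadraticAlgebra.re hβ) (congrArg QuadraticAlgebra.im hβ)
        refine Prod.ext ?_ (Prod.ext ?_ ?_)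
        · show x.norm * z.1 = (c • z).1
          rw [hz, mul_zero, hw]
        · simp [lowAct, hz, hβ, h0]
        · simp [lowAct, hz, hβ, norm_invE hx0, hx, trE]
      · have hn : (midE z).norm = 0 := by
          rw [← hQ, vdForm_Q, hz, zero_mul, sub_zero]
        set b := midE z
        have hbb : b * star b = 0 := by rw [mul_star_cE, hn, cE_zero]
        set t := trE b
        have ht : t ≠ 0 := fun ht => hβ (by
          have e := add_star_cE b
          rw [show trE b = 0 from ht, cE_zero] at e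
          have hsq : b * b = 0 := by linear_combination b * e - hbb
          have e1 := congrArg QuadraticAlgebra.re hsq
          have e2 := congrArg QuadraticAlgebra.im e
          have e3 := congrArg QuadraticAlgebra.re e
          simp only [QuadraticAlgebra.re_mul, QuadraticAlgebra.re_zero, QuadraticAlgebra.re_add,
            QuadraticAlgebra.re_star] at e1 e3
          have hb2 : 3 * b.re ^ 2 = 0 := by
            linear_combination (-1 : ZMod q) * e1 + (2 * b.re + b.im) * e3
          have hre : b.re = 0 :=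
            (pow_eq_zero_iff two_ne_zero).mp ((mul_eq_zero.mp hb2).resolve_left h3)
          refine QuadraticAlgebra.ext hre ?_
          show b.im = 0
          rw [hre] at e3
          linear_combination -e3)
        set e := cE t⁻¹ * b
        have hes : e + star e = 1 := by
          rw [star_mul', star_cE, ← mul_add, add_star_cE, ← map_mul, inv_mul_cancel₀ ht, map_one]
        have hee : e * star e = 0 := by
          rw [star_mul', mul_mul_mul_comm, hbb, mul_zero]
        have heb : e * b = b := by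
          rw [show e * b = cE t⁻¹ * (b * b) by simp only [e]; ring,
            show b * b = b * (b + star b) by rw [mul_add, hbb, add_zero], add_star_cE,
            mul_left_comm, ← map_mul, inv_mul_cancel₀ ht, map_one, mul_one]
        have hseb : star e * b = 0 := by
          rw [star_mul', star_cE, mul_assoc, mul_comm (star b), hbb, mul_zero]
        set x := cE c * e + star e
        have hsx : star x = cE c * star e + e := by
          rw [star_add, star_mul', star_cE, star_star]
        have hxn : x.norm = c := by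
          have h' := mul_star_cE x
          rw [hsx] at h'
          have h'' : x * (cE c * star e + e) = cE c := by
            simp only [x]
            linear_combination ((cE c) ^ 2 + 1 - 2 * cE c) * hee + cE c * (e + star e + 1) * hes
          exact (congrArg QuadraticAlgebra.re (h''.symm.trans h')).symm
        refine lowRel_of_fst_eq_zero h3 hz hw hβ (x := x) (hxn ▸ hc) ?_
        rw [hxn, hmid]
        simp only [x]
        linear_combination (cE c * cE c) * (e + 1) * heb +
          (2 * cE c * e + star e) * hseb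
    · exact lowRel_of_fst_ne_zero h3 hz (by rw [Prod.smul_fst]; exact smul_ne_zero hc hz)
        (by rw [(vdForm q).Q_smul, hQ, mul_zero])

section Gauss

variable {R : Type} [CommRing R] (ψ : AddChar (ZMod q) R)
  (hψ : ∀ x : ZMod q, x ≠ 0 → ∑ t : ZMod q, ψ (t * x) = 0)

/-- The Gauss sum of the norm. -/
def planeGauss (A : ZMod q) : R :=
  ∑ β : ZMod q × ZMod q, ψ (A * (β.1 ^ 2 - β.1 * β.2 + β.2 ^ 2))

theorem planeGauss_eq (h3 : (3 : ZMod q) ≠ 0) {A : ZMod q} (hA : A ≠ 0) :
    planeGauss ψ A = planeGauss ψ 1 := by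
  obtain ⟨z, hz⟩ := exists_norm_eq h3 A hA
  let f : ZMod q × ZMod q → ZMod q × ZMod q := fun β =>
    ((z * ⟨β.1, β.2⟩).re, (z * ⟨β.1, β.2⟩).im)
  have hf : Function.Injective f := fun β γ hβ => by
    have e : z * ⟨β.1, β.2⟩ = z * ⟨γ.1, γ.2⟩ :=
      QuadraticAlgebra.ext (congrArg Prod.fst hβ) (congrArg Prod.snd hβ)
    have e' := congrArg (invE z * ·) e
    simp only [← mul_assoc, mul_comm (invE z) z, mul_invE (hz ▸ hA), one_mul] at e'
    exact Prod.ext (congrArg QuadraticAlgebra.re e') (congrArg QuadraticAlgebra.im e')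
  refine Fintype.sum_bijective f (Finite.injective_iff_bijective.mp hf) _ _ fun β => ?_
  congr 1
  rw [← hz, one_mul]
  simp only [f, QuadraticAlgebra.norm_def, QuadraticAlgebra.re_mul, QuadraticAlgebra.im_mul]
  ring

include hψ

theorem planeGauss_sq (h3 : (3 : ZMod q) ≠ 0) : planeGauss ψ 1 * planeGauss ψ 1 = (q : R) ^ 2 := by
  nth_rw 2 [← planeGauss_eq ψ h3 (neg_ne_zero.mpr (one_ne_zero (α := ZMod q)))]
  rw [planeGauss, planeGauss, Finset.sum_mul]
  simp only [Finset.mul_sum]
  rw [Finset.sum_comm]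
  have e : ∀ γ : ZMod q × ZMod q,
      (∑ β : ZMod q × ZMod q, ψ (1 * (β.1 ^ 2 - β.1 * β.2 + β.2 ^ 2)) *
        ψ (-1 * (γ.1 ^ 2 - γ.1 * γ.2 + γ.2 ^ 2))) =
      ∑ x : ZMod q × ZMod q, ψ (x.1 ^ 2 - x.1 * x.2 + x.2 ^ 2) *
        (ψ (γ.1 * (2 * x.1 - x.2)) * ψ (γ.2 * (2 * x.2 - x.1))) := by
    intro γ
    refine (Fintype.sum_equiv (Equiv.addLeft γ) _ _ fun x => ?_).symm
    simp only [Equiv.coe_addLeft, Prod.fst_add, Prod.snd_add, ← AddChar.map_add_eq_mul]
    congr 1
    ring
  rw [Finset.sum_congr rfl fun γ _ => e γ, Finset.sum_comm]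
  have e2 : ∀ x : ZMod q × ZMod q, (∑ γ : ZMod q × ZMod q,
      ψ (x.1 ^ 2 - x.1 * x.2 + x.2 ^ 2) * (ψ (γ.1 * (2 * x.1 - x.2)) * ψ (γ.2 * (2 * x.2 - x.1)))) =
      if x = 0 then (q : R) ^ 2 else 0 := by
    intro x
    rw [← Finset.mul_sum, Fintype.sum_prod_type]
    dsimp only
    rw [← Fintype.sum_mul_sum, sum_addChar_mul ψ hψ, sum_addChar_mul ψ hψ]
    by_cases hx : x = 0
    · simp [hx, pow_two]
    · rw [if_neg hx]
      by_cases h1 : 2 * x.1 - x.2 = 0
      · have h2 : 2 * x.2 - x.1 ≠ 0 := fun h2 => hx (Prod.ext (eq_zero_of_pair h3 h1 h2).1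
          (eq_zero_of_pair h3 h1 h2).2)
        simp [h2]
      · simp [h1]
  rw [Finset.sum_congr rfl fun x _ => e2 x, Finset.sum_ite_eq', if_pos (Finset.mem_univ _)]

variable (hq : IsUnit (q : R))

/-- The local Weil data. -/
def hermWeil (h3 : (3 : ZMod q) ≠ 0) : WeilData q (Vd (ZMod q)) R where
  toQuadData := vdForm q
  ψ := ψ
  u := (↑hq.unit⁻¹ : R) ^ 3 * planeGauss ψ 1
  sum_ψ v hv := by
    have e : ∀ w : Vd (ZMod q), ψ ((vdForm q).B v w) = ψ (w.1 * -v.2.2) *
        ((ψ (w.2.1.1 * (2 * v.2.1.1 - v.2.1.2)) * ψ (w.2.1.2 * (2 * v.2.1.2 - v.2.1.1))) *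
          ψ (w.2.2 * -v.1)) := fun w => by
      simp only [← AddChar.map_add_eq_mul, vdForm]
      congr 1
      ring
    simp only [e, Fintype.sum_prod_type, ← Finset.mul_sum, ← Finset.sum_mul,
      sum_addChar_mul ψ hψ, neg_eq_zero]
    by_cases ha : v.1 = 0
    · by_cases hd : v.2.2 = 0
      · by_cases h1 : 2 * v.2.1.1 - v.2.1.2 = 0
        · have h2 : 2 * v.2.1.2 - v.2.1.1 ≠ 0 := fun h2 => hv (Prod.ext ha (Prod.ext (Prod.ext
            (eq_zero_of_pair h3 h1 h2).1 (eq_zero_of_pair h3 h1 h2).2) hd))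
          simp [h2]
        · simp [h1]
      · simp [hd]
    · simp [ha]
  gauss A hA := by
    have e : ∀ w : Vd (ZMod q), ψ (A * (vdForm q).Q w) =
        ψ (A * (w.2.1.1 ^ 2 - w.2.1.1 * w.2.1.2 + w.2.1.2 ^ 2)) * ψ (w.2.2 * -(A * w.1)) :=
      fun w => by
        simp only [← AddChar.map_add_eq_mul, vdForm]
        congr 1
        ring
    simp only [e, Fintype.sum_prod_type, ← Finset.mul_sum, sum_addChar_mul ψ hψ, neg_eq_zero,
      mul_eq_zero, hA, false_or]
    simp only [mul_ite, mul_zero, Finset.sum_ite_irrel, Finset.sum_const_zero]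
    rw [Finset.sum_ite_eq', if_pos (Finset.mem_univ _)]
    simp only [← Finset.sum_mul]
    have hp := planeGauss_eq ψ h3 hA
    rw [planeGauss, Fintype.sum_prod_type] at hp
    rw [hp]
    linear_combination ((↑hq.unit⁻¹ : R) ^ 3 * (q : R)) * planeGauss_sq ψ hψ h3 +
      ((↑hq.unit⁻¹ : R) ^ 2 * (q : R) ^ 2 + (↑hq.unit⁻¹ : R) * (q : R) + 1) * hq.val_inv_mul
  u_sq := by
    simp only [Fintype.card_prod, ZMod.card, Nat.cast_mul]
    linear_combination ((↑hq.unit⁻¹ : R) ^ 6 * (q : R) ^ 4) * planeGauss_sq ψ hψ h3 +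
      (((↑hq.unit⁻¹ : R) * (q : R)) ^ 5 + ((↑hq.unit⁻¹ : R) * (q : R)) ^ 4 +
        ((↑hq.unit⁻¹ : R) * (q : R)) ^ 3 + ((↑hq.unit⁻¹ : R) * (q : R)) ^ 2 +
          (↑hq.unit⁻¹ : R) * (q : R) + 1) * hq.val_inv_mul

end Gauss

end LowerTriangular

end Fermat.Agent.Raising.SquareRemoval
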